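import Fermat.Agent.S28.ANDef

/-!
# S28, Part IIb (first half): `y` is integral over `ℤ_(ℓ)[j]`

Piece `isIntegral_yUnit` of helper6088's skeleton (exact statement), proved from `ANData`
(helper1829).  Helper lemmas live in the sub-namespace `IntY1829` to keep names fresh.
-/

set_option autoImplicit false

noncomputable section

namespace Fermat.Agent.S28

open ModularCurve Polynomial

namespace IntY1829

section Formal

variable {R S : Type*} [CommRing R] [CommRing S] (f : R →+* S)

theorem coeffMap_injective (hf : Function.Injective f) : Function.Injective (coeffMap f) := by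
  intro x y h
  ext k
  have := congrArg (fun z => z.coeff k) h
  simp only [coeffMap_coeff] at this
  exact hf this

theorem coeffMap_qExpand (N : ℕ) [NeZero N] (x : LaurentSeries R) :
    coeffMap f (qExpand R N x) = qExpand S N (coeffMap f x) := by
  ext k
  by_cases hk : (N : ℤ) ∣ k
  · obtain ⟨m, rfl⟩ := hk
    rw [coeffMap_coeff, qExpand_coeff_mul, qExpand_coeff_mul, coeffMap_coeff]
  · rw [coeffMap_coeff, qExpand_coeff_of_not_dvd N x hk, qExpand_coeff_of_not_dvd N _ hk, map_zero]

theorem coeffMap_jqModC : coeffMap f (jqModC R) = jqModC S := map_jqModC f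

theorem coeffMap_jt (N : ℕ) [NeZero N] : coeffMap f (jt R N) = jt S N := by
  rw [jt, jt, coeffMap_qExpand, coeffMap_jqModC]

theorem coeffMap_ofPowerSeries (u : PowerSeries R) :
    coeffMap f (HahnSeries.ofPowerSeries ℤ R u) = HahnSeries.ofPowerSeries ℤ S (u.map f) := by
  ext k
  rw [coeffMap_coeff]
  rcases le_or_gt 0 k with hk | hk
  · lift k to ℕ using hk
    rw [HahnSeries.ofPowerSeries_apply_coeff, HahnSeries.ofPowerSeries_apply_coeff,
      PowerSeries.coeff_map]
  · rw [ofPowerSeries_coeff_of_neg _ hk, ofPowerSeries_coeff_of_neg _ hk, map_zero]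

theorem map_map_intCast (u : PowerSeries ℤ) :
    (u.map (Int.castRingHom R)).map f = u.map (Int.castRingHom S) := by
  ext n
  simp

theorem unitsMap_deltaUnit :
    Units.map (coeffMap f : LaurentSeries R →* LaurentSeries S) (deltaUnit R) = deltaUnit S := by
  ext1
  show coeffMap f (HahnSeries.single (1 : ℤ) (1 : R) *
    HahnSeries.ofPowerSeries ℤ R (dedekindEtaUnit.map (Int.castRingHom R))) =
    HahnSeries.single (1 : ℤ) (1 : S) *
    HahnSeries.ofPowerSeries ℤ S (dedekindEtaUnit.map (Int.castRingHom S))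
  rw [map_mul, coeffMap_single, map_one, coeffMap_ofPowerSeries, map_map_intCast]

theorem unitsMap_deltaUnitAt' (d : ℕ) :
    Units.map (coeffMap f : LaurentSeries R →* LaurentSeries S) (deltaUnitAt' R d) =
      deltaUnitAt' S d := by
  unfold deltaUnitAt'
  by_cases h : d = 0
  · simp [h]
  · rw [dif_neg h, dif_neg h]
    have : NeZero d := ⟨h⟩
    ext1
    show coeffMap f (qExpand R d (deltaUnit R : LaurentSeries R)) =
      qExpand S d (deltaUnit S : LaurentSeries S)
    rw [coeffMap_qExpand, ← unitsMap_deltaUnit f]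
    rfl

theorem unitsMap_yUnit (N : ℕ) :
    Units.map (coeffMap f : LaurentSeries R →* LaurentSeries S) (yUnit R N) = yUnit S N := by
  unfold yUnit
  rw [map_mul, map_prod, map_zpow, unitsMap_deltaUnit]
  congr 1
  refine Finset.prod_congr rfl fun d _ => ?_
  rw [map_zpow, unitsMap_deltaUnitAt']

theorem algebraMap_eq_single (r : R) :
    algebraMap R (LaurentSeries R) r = HahnSeries.single 0 r := by
  have h1 : algebraMap R (PowerSeries R) r = PowerSeries.C r := by
    simp
  rw [HahnSeries.algebraMap_apply', h1, HahnSeries.ofPowerSeries_C]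
  rfl

theorem coeffMap_yUnit (N : ℕ) :
    coeffMap f (yUnit R N : LaurentSeries R) = (yUnit S N : LaurentSeries S) := by
  rw [← unitsMap_yUnit f N]
  rfl

end Formal

theorem algebraMap_Zl_eq_single (ℓ : ℕ) (z : Zl ℓ) :
    algebraMap (Zl ℓ) (LaurentSeries ℚ) z = HahnSeries.single 0 (z : ℚ) := by
  have h1 : algebraMap (Zl ℓ) (PowerSeries ℚ) z = PowerSeries.C (z : ℚ) := by
    rw [PowerSeries.algebraMap_apply]
    rfl
  rw [HahnSeries.algebraMap_apply', h1, HahnSeries.ofPowerSeries_C]
  rfl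

end IntY1829

/-- **Part IIb** (char ℓ), first half: `y` is integral over `ℤ_(ℓ)[j]`. -/
theorem isIntegral_yUnit (N : ℕ) [NeZero N] (ℓ : ℕ) [Fact ℓ.Prime] (hℓN : ¬ ℓ ∣ N) (D : ANData N) :
    IsIntegral (Algebra.adjoin (Zl ℓ) {jq}) (yUnit ℚ N : LaurentSeries ℚ) := by
  classical
  have hℓ : ℓ.Prime := Fact.out
  -- the comparison map `f(q) ↦ f(t^N)` with complex coefficients
  let ψ : LaurentSeries ℚ →+* LaurentSeries ℂ :=
    (qExpand ℂ N).comp (coeffMap (algebraMap ℚ ℂ))
  have hψ : Function.Injective ψ :=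
    (qExpand_injective N).comp (IntY1829.coeffMap_injective _ (algebraMap ℚ ℂ).injective)
  let algS : Algebra (Algebra.adjoin (Zl ℓ) ({jq} : Set (LaurentSeries ℚ))) (LaurentSeries ℂ) :=
    (ψ.comp (algebraMap (Algebra.adjoin (Zl ℓ) ({jq} : Set (LaurentSeries ℚ)))
      (LaurentSeries ℚ))).toAlgebra
  let ψₐ : LaurentSeries ℚ →ₐ[Algebra.adjoin (Zl ℓ) ({jq} : Set (LaurentSeries ℚ))]
      LaurentSeries ℂ := { ψ with commutes' := fun _ => rfl }
  rw [← isIntegral_algHom_iff ψₐ hψ]
  show IsIntegral (Algebra.adjoin (Zl ℓ) ({jq} : Set (LaurentSeries ℚ)))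
    (ψ (yUnit ℚ N : LaurentSeries ℚ))
  let cR : LaurentSeries D.R →+* LaurentSeries ℂ := coeffMap D.R.subtype
  have hy : ψ (yUnit ℚ N : LaurentSeries ℚ) = cR (D.Y D.u₀ : LaurentSeries D.R) := by
    show qExpand ℂ N (coeffMap (algebraMap ℚ ℂ) (yUnit ℚ N : LaurentSeries ℚ)) =
      coeffMap D.R.subtype (D.Y D.u₀ : LaurentSeries D.R)
    rw [D.base_Y, IntY1829.coeffMap_qExpand, IntY1829.coeffMap_yUnit, IntY1829.coeffMap_yUnit]
  -- `j(t^N)` is in the image of `ℤ_(ℓ)[j]`
  have hj : IsIntegral (Algebra.adjoin (Zl ℓ) ({jq} : Set (LaurentSeries ℚ)))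
      (cR (jt D.R N)) := by
    have h1 : cR (jt D.R N) = algebraMap (Algebra.adjoin (Zl ℓ) ({jq} : Set (LaurentSeries ℚ)))
        (LaurentSeries ℂ) ⟨jq, Algebra.subset_adjoin rfl⟩ := by
      show coeffMap D.R.subtype (jt D.R N) = qExpand ℂ N (coeffMap (algebraMap ℚ ℂ) jq)
      rw [IntY1829.coeffMap_jt, ← jqModC_rat, IntY1829.coeffMap_jqModC]
      rfl
    rw [h1]
    exact isIntegral_algebraMap
  -- constants of `R` are integral
  have hconst : ∀ r : D.R, IsIntegral (Algebra.adjoin (Zl ℓ) ({jq} : Set (LaurentSeries ℚ)))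
      (cR (algebraMap D.R (LaurentSeries D.R) r)) := by
    intro r
    have h1 : cR (algebraMap D.R (LaurentSeries D.R) r) =
        (HahnSeries.C : ℂ →+* LaurentSeries ℂ) (r : ℂ) := by
      rw [IntY1829.algebraMap_eq_single]
      show coeffMap D.R.subtype (HahnSeries.single 0 r) = HahnSeries.single 0 (r : ℂ)
      rw [coeffMap_single]
      rfl
    rw [h1]
    refine IsIntegral.map_of_comp_eq
      (algebraMap (Zl ℓ) (Algebra.adjoin (Zl ℓ) ({jq} : Set (LaurentSeries ℚ))))
      (HahnSeries.C : ℂ →+* LaurentSeries ℂ) ?_ (D.integral ℓ hℓ hℓN r)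
    refine RingHom.ext fun z => ?_
    show qExpand ℂ N (coeffMap (algebraMap ℚ ℂ) (algebraMap (Zl ℓ) (LaurentSeries ℚ) z)) =
      HahnSeries.single 0 (algebraMap ℚ ℂ (z : ℚ))
    rw [IntY1829.algebraMap_Zl_eq_single, coeffMap_single, qExpand_single, mul_zero]
  have hcoef : ∀ g : Polynomial D.R,
      IsIntegral (Algebra.adjoin (Zl ℓ) ({jq} : Set (LaurentSeries ℚ)))
        (cR (Polynomial.aeval (jt D.R N) g)) := by
    intro g
    induction g using Polynomial.induction_on with
    | C r =>
      rw [Polynomial.aeval_C]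
      exact hconst r
    | add p q hp hq =>
      rw [map_add, map_add]
      exact hp.add hq
    | monomial n r h =>
      rw [pow_succ, ← mul_assoc, map_mul, Polynomial.aeval_X, map_mul]
      exact h.mul hj
  obtain ⟨q, hq⟩ := (Polynomial.mem_lifts _).mp D.charpoly_Y
  have hmonic : ((∏ u : D.ι, (X - C (D.Y u : LaurentSeries D.R))).map cR).Monic :=
    (Polynomial.monic_prod_of_monic _ _ fun u _ => Polynomial.monic_X_sub_C _).map cR
  have hdeg : ((∏ u : D.ι, (X - C (D.Y u : LaurentSeries D.R))).map cR).natDegree ≠ 0 := by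
    rw [(Polynomial.monic_prod_of_monic _ _ fun u _ => Polynomial.monic_X_sub_C _).natDegree_map,
      Polynomial.natDegree_prod_of_monic _ _ fun u _ => Polynomial.monic_X_sub_C _]
    simp only [Polynomial.natDegree_X_sub_C, Finset.sum_const, Finset.card_univ, smul_eq_mul,
      mul_one]
    have : Nonempty D.ι := ⟨D.u₀⟩
    exact Fintype.card_ne_zero
  have heval : Polynomial.eval (ψ (yUnit ℚ N : LaurentSeries ℚ))
      ((∏ u : D.ι, (X - C (D.Y u : LaurentSeries D.R))).map cR) = 0 := by
    rw [hy, Polynomial.eval_map, Polynomial.eval₂_at_apply, Polynomial.eval_prod,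
      Finset.prod_eq_zero (Finset.mem_univ D.u₀) (by simp), map_zero]
  refine IsIntegral.of_aeval_monic_of_isIntegral_coeff hmonic hdeg ?_ ?_
  · rw [heval]
    exact isIntegral_zero
  · intro i
    rw [Polynomial.coeff_map, ← hq, Polynomial.coeff_map]
    exact hcoef (q.coeff i)

end Fermat.Agent.S28
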