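import Mathlib

/-!
# S28: the abstract irreducibility core (pure algebra, Mathlib only)

Let `R` be an integrally closed domain, `φ : R →+* L` an injective ring hom to a field, and
`ord : L → ℤ` additive on products of nonzero elements and trivial on (images of) units of `R`.
Let `Y : ι → L` be a finite family of nonzero elements such that `∏ (X - Y u)` and
`∏ (X - (Y u)⁻¹)` have coefficients in `R`, and such that all `Y u`, `u ≠ u₀`, have the same
nonzero order `-c`.  Then `Y u₀` has degree exactly `card ι` over `R`: no nonzero polynomial of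
degree `< card ι` over `R` kills `Y u₀`.

(For Igusa's theorem: `R = k[j]`, `L = k((t))`, `Y u` = the reductions of the `t`-expansions of the
conjugates of a modular unit with a pole at every cusp but one.)
-/

set_option autoImplicit false

open Polynomial

namespace Fermat.Agent.S28.IrrCore

section Generic

variable {R L : Type*} [CommRing R] [IsDomain R] [IsIntegrallyClosed R] [Field L]

/-- an element of `R` whose image has an inverse integral over `R` is a unit -/
theorem isUnit_of_isIntegral_inv (φ : R →+* L) (hφ : Function.Injective φ) (e : R) (he : e ≠ 0)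
    (h : φ.IsIntegralElem (φ e)⁻¹) : IsUnit e := by
  let K := FractionRing R
  let ψ : K →+* L := IsFractionRing.lift (K := K) (g := φ) hφ
  have hψ : Function.Injective ψ := ψ.injective
  have hψφ : ∀ r : R, ψ (algebraMap R K r) = φ r := fun r => IsFractionRing.lift_algebraMap hφ r
  have h1 : ψ ((algebraMap R K e)⁻¹) = (φ e)⁻¹ := by
    rw [map_inv₀, hψφ]
  have h2 : IsIntegral R ((algebraMap R K e)⁻¹) := by
    obtain ⟨p, hp, hp0⟩ := h
    refine ⟨p, hp, hψ ?_⟩
    rw [Polynomial.hom_eval₂, h1, map_zero]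
    have : ψ.comp (algebraMap R K) = φ := RingHom.ext hψφ
    rw [this]
    exact hp0
  obtain ⟨r, hr⟩ := IsIntegrallyClosed.isIntegral_iff.mp h2
  have he' : algebraMap R K e ≠ 0 := by
    intro h0
    exact he ((IsFractionRing.injective R K) (by rw [h0, map_zero]))
  have h3 : algebraMap R K (r * e) = algebraMap R K 1 := by
    rw [map_mul, hr, inv_mul_cancel₀ he', map_one]
  have h4 : r * e = 1 := IsFractionRing.injective R K h3
  exact IsUnit.of_mul_eq_one r (by rw [mul_comm]; exact h4)

section Ord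

variable (ord : L → ℤ) (hord_mul : ∀ x y : L, x ≠ 0 → y ≠ 0 → ord (x * y) = ord x + ord y)
include hord_mul

theorem ord_one_eq_zero : ord 1 = 0 := by
  have h := hord_mul 1 1 one_ne_zero one_ne_zero
  rw [mul_one] at h
  linarith

theorem ord_multiset_prod (s : Multiset L) (hs : ∀ x ∈ s, x ≠ 0) :
    ord s.prod = (s.map ord).sum := by
  induction s using Multiset.induction_on with
  | empty => simpa using ord_one_eq_zero ord hord_mul
  | cons a s ih =>
    have ha : a ≠ 0 := hs a (Multiset.mem_cons_self a s)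
    have hs' : ∀ x ∈ s, x ≠ 0 := fun x hx => hs x (Multiset.mem_cons_of_mem hx)
    have hp : s.prod ≠ 0 := Multiset.prod_ne_zero (fun h0 => hs' 0 h0 rfl)
    rw [Multiset.prod_cons, hord_mul a _ ha hp, ih hs', Multiset.map_cons, Multiset.sum_cons]

theorem ord_multiset_prod_const (s : Multiset L) (d : ℤ) (hs0 : ∀ x ∈ s, x ≠ 0)
    (hs : ∀ x ∈ s, ord x = d) : ord s.prod = (Multiset.card s : ℤ) * d := by
  rw [ord_multiset_prod ord hord_mul s hs0]
  have : s.map ord = Multiset.replicate (Multiset.card s) d := by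
    rw [Multiset.eq_replicate]
    refine ⟨by simp, ?_⟩
    intro b hb
    obtain ⟨x, hx, rfl⟩ := Multiset.mem_map.mp hb
    exact hs x hx
  rw [this, Multiset.sum_replicate, nsmul_eq_mul]

end Ord

section Main

variable (φ : R →+* L) (hφ : Function.Injective φ)
  (ord : L → ℤ) (hord_mul : ∀ x y : L, x ≠ 0 → y ≠ 0 → ord (x * y) = ord x + ord y)
  (hord_unit : ∀ r : R, IsUnit r → ord (φ r) = 0)
  {ι : Type*} [Fintype ι] [DecidableEq ι] (Y : ι → L) (hY : ∀ u, Y u ≠ 0) (u₀ : ι)
  (hP : ∏ u, (X - C (Y u)) ∈ Polynomial.lifts φ)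
  (hPinv : ∏ u, (X - C (Y u)⁻¹) ∈ Polynomial.lifts φ)
  (c : ℤ) (hc : c ≠ 0) (hordY : ∀ u, u ≠ u₀ → ord (Y u) = -c)

omit [IsDomain R] [IsIntegrallyClosed R] [DecidableEq ι] in
include hφ hP in
theorem isIntegralElem_of_lifts (u : ι) : φ.IsIntegralElem (Y u) := by
  obtain ⟨p, hp⟩ := hP
  have hmonic : (∏ u, (X - C (Y u))).Monic := monic_prod_of_monic _ _ fun u _ => monic_X_sub_C (Y u)
  refine ⟨p, monic_of_injective hφ (by rw [show p.map φ = _ from hp]; exact hmonic), ?_⟩
  rw [← eval_map, show p.map φ = _ from hp, eval_prod]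
  exact Finset.prod_eq_zero (Finset.mem_univ u) (by simp)

omit [IsDomain R] [IsIntegrallyClosed R] [DecidableEq ι] in
include hφ hP hPinv hord_mul hord_unit hY in
theorem ord_prod_eq_zero : ord (∏ u, Y u) = 0 := by
  obtain ⟨p, hp⟩ := hP
  obtain ⟨p', hp'⟩ := hPinv
  have hp : p.map φ = ∏ u, (X - C (Y u)) := hp
  have hp' : p'.map φ = ∏ u, (X - C (Y u)⁻¹) := hp'
  set n := Fintype.card ι with hn
  have h1 : φ (p.eval 0) = (-1) ^ n * ∏ u, Y u := by
    rw [← eval_zero_map, hp, eval_prod]
    simp only [eval_sub, eval_X, eval_C, zero_sub]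
    rw [Finset.prod_neg]
    simp [hn]
  have h2 : φ (p'.eval 0) = (-1) ^ n * (∏ u, Y u)⁻¹ := by
    rw [← eval_zero_map, hp', eval_prod]
    simp only [eval_sub, eval_X, eval_C, zero_sub]
    rw [Finset.prod_neg, Finset.prod_inv_distrib]
    simp [hn]
  have hE : (∏ u, Y u) ≠ 0 := Finset.prod_ne_zero_iff.mpr fun u _ => hY u
  have h3 : φ (p.eval 0 * p'.eval 0) = φ 1 := by
    rw [map_mul, h1, h2, map_one]
    have : ((-1 : L) ^ n) * ((-1) ^ n) = 1 := by
      rw [← mul_pow]; simp
    generalize (∏ u, Y u) = E at hE ⊢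
    calc ((-1 : L) ^ n * E) * ((-1) ^ n * E⁻¹)
        = ((-1 : L) ^ n * (-1) ^ n) * (E * E⁻¹) := by ring
      _ = 1 := by rw [this, mul_inv_cancel₀ hE, mul_one]
  have h4 : p.eval 0 * p'.eval 0 = 1 := hφ h3
  have hu : IsUnit (p.eval 0) := IsUnit.of_mul_eq_one _ h4
  have h5 := hord_unit _ hu
  rw [h1] at h5
  have hsign : ord ((-1 : L) ^ n) = 0 := by
    have := hord_unit ((-1) ^ n) ((isUnit_one.neg).pow n)
    simpa using this
  rw [hord_mul _ _ (pow_ne_zero _ (neg_ne_zero.mpr one_ne_zero)) hE, hsign, zero_add] at h5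
  exact h5

omit [IsDomain R] [IsIntegrallyClosed R] in
include hφ hP hPinv hord_mul hord_unit hY hordY in
theorem ord_base : ord (Y u₀) = ((Fintype.card ι : ℤ) - 1) * c := by
  have h0 := ord_prod_eq_zero φ hφ ord hord_mul hord_unit Y hY hP hPinv
  rw [← Finset.mul_prod_erase Finset.univ Y (Finset.mem_univ u₀)] at h0
  have hne : (∏ u ∈ Finset.univ.erase u₀, Y u) ≠ 0 := Finset.prod_ne_zero_iff.mpr fun u _ => hY u
  rw [hord_mul _ _ (hY u₀) hne] at h0
  have h1 : ord (∏ u ∈ Finset.univ.erase u₀, Y u) = ((Fintype.card ι : ℤ) - 1) * (-c) := by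
    have h := ord_multiset_prod_const ord hord_mul ((Finset.univ.erase u₀).val.map Y) (-c)
      (by
        intro x hx
        obtain ⟨u, _, rfl⟩ := Multiset.mem_map.mp hx
        exact hY u)
      (by
        intro x hx
        obtain ⟨u, hu, rfl⟩ := Multiset.mem_map.mp hx
        exact hordY u (Finset.ne_of_mem_erase hu))
    rw [Multiset.card_map] at h
    have hcard : (Multiset.card (Finset.univ.erase u₀).val : ℤ) = (Fintype.card ι : ℤ) - 1 := by
      have : (Finset.univ.erase u₀).card = Fintype.card ι - 1 := by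
        rw [Finset.card_erase_of_mem (Finset.mem_univ u₀), Finset.card_univ]
      have hpos : 0 < Fintype.card ι := Fintype.card_pos_iff.mpr ⟨u₀⟩
      show ((Finset.univ.erase u₀).card : ℤ) = _
      rw [this]
      omega
    rw [hcard] at h
    exact h
  rw [h1] at h0
  linarith

omit [IsDomain R] [IsIntegrallyClosed R] [DecidableEq ι] in
theorem prod_X_sub_C_eq_multiset (Z : ι → L) :
    ∏ u, (X - C (Z u)) = ((Finset.univ.val.map Z).map (fun a => X - C a)).prod := by
  rw [Multiset.map_map]
  rfl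

omit [IsDomain R] [IsIntegrallyClosed R] [DecidableEq ι] in
theorem roots_prod_X_sub_C_family (Z : ι → L) :
    (∏ u, (X - C (Z u))).roots = Finset.univ.val.map Z := by
  rw [prod_X_sub_C_eq_multiset, roots_multiset_prod_X_sub_C]

include hφ hP hPinv hord_mul hord_unit hY hc hordY in
/-- **Main generic statement**: no nonzero polynomial over `R` of degree `< card ι` kills `Y u₀`. -/
theorem eval₂_ne_zero_of_natDegree_lt (q : R[X]) (hq : q ≠ 0)
    (hdeg : q.natDegree < Fintype.card ι) : q.eval₂ φ (Y u₀) ≠ 0 := by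
  classical
  intro hq0
  let _ : Algebra R L := φ.toAlgebra
  have hinj : Function.Injective (algebraMap R L) := hφ
  have : Module.IsTorsionFree R L := Module.isTorsionFree_iff_algebraMap_injective.mpr hinj
  have hint : IsIntegral R (Y u₀) := isIntegralElem_of_lifts φ hφ Y hP u₀
  have hm_monic : (minpoly R (Y u₀)).Monic := minpoly.monic hint
  have hbase := ord_base φ hφ ord hord_mul hord_unit Y hY u₀ hP hPinv c hordY
  have hintinv : ∀ u, φ.IsIntegralElem (Y u)⁻¹ := fun u =>
    isIntegralElem_of_lifts φ hφ (fun u => (Y u)⁻¹) hPinv u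
  obtain ⟨p, hp⟩ := hP
  have hp : p.map φ = ∏ u, (X - C (Y u)) := hp
  have hPne : (∏ u, (X - C (Y u))) ≠ 0 :=
    Finset.prod_ne_zero_iff.mpr fun u _ => X_sub_C_ne_zero (Y u)
  have hPsplits : (∏ u, (X - C (Y u))).Splits := Splits.prod fun u _ => Splits.X_sub_C (Y u)
  have hp_root : Polynomial.aeval (Y u₀) p = 0 := by
    rw [aeval_def, ← eval_map]
    rw [show p.map (algebraMap R L) = ∏ u, (X - C (Y u)) from hp, eval_prod]
    exact Finset.prod_eq_zero (Finset.mem_univ u₀) (by simp)
  have hdvd : minpoly R (Y u₀) ∣ p := minpoly.isIntegrallyClosed_dvd hint hp_root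
  set m' : L[X] := (minpoly R (Y u₀)).map φ with hm'
  have hdvd' : m' ∣ ∏ u, (X - C (Y u)) := by
    rw [← hp]
    exact Polynomial.map_dvd φ hdvd
  have hm'_monic : m'.Monic := hm_monic.map φ
  have hm'_splits : m'.Splits := hPsplits.of_dvd hPne hdvd'
  have hroots_le : m'.roots ≤ Finset.univ.val.map Y := by
    rw [← roots_prod_X_sub_C_family]
    exact roots.le_of_dvd hPne hdvd'
  have hm'_root : m'.IsRoot (Y u₀) := by
    rw [IsRoot.def, hm', eval_map]
    exact minpoly.aeval R (Y u₀)
  have hmem : Y u₀ ∈ m'.roots := (mem_roots hm'_monic.ne_zero).mpr hm'_root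
  -- the roots of `m'` other than `Y u₀`
  set S := m'.roots with hS
  have hS_eq : S = Y u₀ ::ₘ S.erase (Y u₀) := (Multiset.cons_erase hmem).symm
  have hM_eq : Finset.univ.val.map Y = Y u₀ ::ₘ (Finset.univ.erase u₀).val.map Y := by
    rw [← Multiset.map_cons Y, Finset.erase_val, Multiset.cons_erase (Finset.mem_univ_val u₀)]
  have herase_le : S.erase (Y u₀) ≤ (Finset.univ.erase u₀).val.map Y := by
    have h1 : S.erase (Y u₀) ≤ (Finset.univ.val.map Y).erase (Y u₀) :=
      Multiset.erase_le_erase _ hroots_le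
    rwa [hM_eq, Multiset.erase_cons_head] at h1
  have hS'0 : ∀ x ∈ S.erase (Y u₀), x ≠ 0 := by
    intro x hx
    obtain ⟨u, _, rfl⟩ := Multiset.mem_map.mp (Multiset.mem_of_le herase_le hx)
    exact hY u
  have hS'ord : ∀ x ∈ S.erase (Y u₀), ord x = -c := by
    intro x hx
    obtain ⟨u, hu, rfl⟩ := Multiset.mem_map.mp (Multiset.mem_of_le herase_le hx)
    exact hordY u (Finset.ne_of_mem_erase hu)
  have hS0 : ∀ x ∈ S, x ≠ 0 := by
    intro x hx
    obtain ⟨u, _, rfl⟩ := Multiset.mem_map.mp (Multiset.mem_of_le hroots_le hx)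
    exact hY u
  have hSprod_ne : S.prod ≠ 0 := Multiset.prod_ne_zero (fun h0 => hS0 0 h0 rfl)
  -- the constant coefficient of the minimal polynomial is a unit
  have hcoeff : φ ((minpoly R (Y u₀)).coeff 0) = (-1) ^ m'.natDegree * S.prod := by
    rw [← hm'_splits.coeff_zero_eq_prod_roots_of_monic hm'_monic, hm', coeff_map]
  set e : R := (-1) ^ m'.natDegree * (minpoly R (Y u₀)).coeff 0 with he
  have hφe : φ e = S.prod := by
    rw [he, map_mul, hcoeff, map_pow, map_neg, map_one, ← mul_assoc, ← mul_pow]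
    simp
  have he0 : e ≠ 0 := by
    intro h0
    rw [h0, map_zero] at hφe
    exact hSprod_ne hφe.symm
  have hinv_int : φ.IsIntegralElem (φ e)⁻¹ := by
    rw [hφe]
    have h1 : (S.prod)⁻¹ = (S.map (fun x => x⁻¹)).prod := by
      rw [Multiset.prod_map_inv, Multiset.map_id']
    rw [h1]
    have h2 : ∀ x ∈ S.map (fun x => x⁻¹), IsIntegral R x := by
      intro x hx
      obtain ⟨a, ha, rfl⟩ := Multiset.mem_map.mp hx
      obtain ⟨u, _, rfl⟩ := Multiset.mem_map.mp (Multiset.mem_of_le hroots_le ha)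
      exact hintinv u
    exact IsIntegral.multiset_prod h2
  have he_unit : IsUnit e := isUnit_of_isIntegral_inv φ hφ e he0 hinv_int
  have hord0 : ord S.prod = 0 := by
    rw [← hφe]
    exact hord_unit e he_unit
  -- count
  have hcount : ord S.prod = ((Fintype.card ι : ℤ) - 1) * c
      + (Multiset.card (S.erase (Y u₀)) : ℤ) * (-c) := by
    have hne' : (S.erase (Y u₀)).prod ≠ 0 := Multiset.prod_ne_zero (fun h0 => hS'0 0 h0 rfl)
    conv_lhs => rw [hS_eq]
    rw [Multiset.prod_cons, hord_mul _ _ (hY u₀) hne', hbase,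
      ord_multiset_prod_const ord hord_mul _ (-c) hS'0 hS'ord]
  have hcard : (Multiset.card (S.erase (Y u₀)) : ℤ) = (Fintype.card ι : ℤ) - 1 := by
    have h : (((Fintype.card ι : ℤ) - 1) - (Multiset.card (S.erase (Y u₀)) : ℤ)) * c = 0 := by
      rw [hord0] at hcount
      linarith
    rcases mul_eq_zero.mp h with h | h
    · linarith
    · exact absurd h hc
  have hcardS : Multiset.card S = Fintype.card ι := by
    have h1 : Multiset.card S = Multiset.card (S.erase (Y u₀)) + 1 := by
      conv_lhs => rw [hS_eq]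
      rw [Multiset.card_cons]
    have hpos : 0 < Fintype.card ι := Fintype.card_pos_iff.mpr ⟨u₀⟩
    omega
  have hnat : (minpoly R (Y u₀)).natDegree = Fintype.card ι := by
    rw [← hcardS, hS, ← hm'_splits.natDegree_eq_card_roots, hm',
      natDegree_map_eq_of_injective hφ]
  -- conclusion
  have hq_root : Polynomial.aeval (Y u₀) q = 0 := hq0
  have hdvdq : minpoly R (Y u₀) ∣ q := minpoly.isIntegrallyClosed_dvd hint hq_root
  have := natDegree_le_of_dvd hdvdq hq
  omega

end Main

end Generic

section Laurent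

variable {k : Type*} [Field k]

/-- a Laurent series of negative order is transcendental over the coefficient field -/
theorem aeval_ne_zero_of_order_neg (jb : LaurentSeries k) (hj : jb.order < 0) (p : k[X])
    (hp : p ≠ 0) : aeval jb p ≠ 0 := by
  have hjb0 : jb ≠ 0 := by
    rintro rfl
    simp at hj
  intro h0
  have hexp : ∀ g : ℤ, (aeval jb p).coeff g =
      ∑ i ∈ Finset.range (p.natDegree + 1), p.coeff i * (jb ^ i).coeff g := by
    intro g
    rw [aeval_eq_sum_range, HahnSeries.coeff_sum]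
    refine Finset.sum_congr rfl fun i _ => ?_
    rw [Algebra.smul_def, LaurentSeries.algebraMap_apply, HahnSeries.C_mul_eq_smul,
      HahnSeries.coeff_smul, smul_eq_mul]
  have hc : (aeval jb p).coeff (p.natDegree • jb.order) ≠ 0 := by
    rw [hexp, Finset.sum_range_succ, Finset.sum_eq_zero, zero_add]
    · rw [← HahnSeries.order_pow]
      exact mul_ne_zero (leadingCoeff_ne_zero.mpr hp)
        (HahnSeries.coeff_order_eq_zero.not.mpr (pow_ne_zero _ hjb0))
    · intro i hi
      rw [HahnSeries.coeff_eq_zero_of_lt_order, mul_zero]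
      rw [HahnSeries.order_pow]
      have hi' : i < p.natDegree := Finset.mem_range.mp hi
      simp only [nsmul_eq_mul]
      have : (i : ℤ) < (p.natDegree : ℤ) := by exact_mod_cast hi'
      nlinarith
  exact hc (by rw [h0]; simp)

theorem aeval_injective_of_order_neg (jb : LaurentSeries k) (hj : jb.order < 0) :
    Function.Injective ((aeval jb : k[X] →ₐ[k] LaurentSeries k) : k[X] →+* LaurentSeries k) := by
  rw [injective_iff_map_eq_zero]
  intro p hp
  by_contra hp0
  exact aeval_ne_zero_of_order_neg jb hj p hp0 hp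

/-- **Irreducibility core over Laurent series.**  Let `jb ∈ k((t))` have negative order and let
`Y : ι → k((t))` be a finite family of nonzero series such that `∏ (X - Y u)` and
`∏ (X - (Y u)⁻¹)` have coefficients in `k[jb]`, and all `Y u`, `u ≠ u₀`, have the same nonzero
order `-c`.  Then `1, Y u₀, …, (Y u₀)^(card ι - 1)` are linearly independent over `k[jb]`
(equivalently over `k(jb)`). -/
theorem laurent_linearIndependent (jb : LaurentSeries k) (hj : jb.order < 0)
    {ι : Type*} [Fintype ι] [DecidableEq ι] (Y : ι → LaurentSeries k) (hY : ∀ u, Y u ≠ 0)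
    (u₀ : ι)
    (hP : ∏ u, (X - C (Y u)) ∈
      Polynomial.lifts ((aeval jb : k[X] →ₐ[k] LaurentSeries k) : k[X] →+* LaurentSeries k))
    (hPinv : ∏ u, (X - C (Y u)⁻¹) ∈
      Polynomial.lifts ((aeval jb : k[X] →ₐ[k] LaurentSeries k) : k[X] →+* LaurentSeries k))
    (c : ℤ) (hc : c ≠ 0) (hordY : ∀ u, u ≠ u₀ → (Y u).order = -c)
    (a : Fin (Fintype.card ι) → k[X])
    (h : ∑ i, aeval jb (a i) * Y u₀ ^ (i : ℕ) = 0) : a = 0 := by
  by_contra ha
  set φ : k[X] →+* LaurentSeries k :=
    ((aeval jb : k[X] →ₐ[k] LaurentSeries k) : k[X] →+* LaurentSeries k) with hφdef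
  have hφ : Function.Injective φ := aeval_injective_of_order_neg jb hj
  set q : k[X][X] := ∑ i : Fin (Fintype.card ι), C (a i) * X ^ (i : ℕ) with hqdef
  have hcoeff : ∀ j : Fin (Fintype.card ι), q.coeff (j : ℕ) = a j := by
    intro j
    rw [hqdef, finsetSum_coeff, Finset.sum_eq_single j]
    · simp
    · intro i _ hij
      rw [coeff_C_mul, coeff_X_pow, if_neg, mul_zero]
      exact fun h => hij (Fin.ext h.symm)
    · intro h
      exact absurd (Finset.mem_univ j) h
  have hq : q ≠ 0 := by
    intro hq0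
    apply ha
    funext j
    rw [← hcoeff j, hq0]
    simp
  have hdeg : q.natDegree < Fintype.card ι := by
    have h1 : q.degree < (Fintype.card ι : ℕ) := degree_sum_fin_lt a
    exact (natDegree_lt_iff_degree_lt hq).mpr h1
  have hord_unit : ∀ r : k[X], IsUnit r → (φ r).order = 0 := by
    intro r hr
    obtain ⟨r₀, _, rfl⟩ := Polynomial.isUnit_iff.mp hr
    have : φ (C r₀) = HahnSeries.C r₀ := by
      rw [hφdef]
      simp only [AlgHom.coe_toRingHom, aeval_C]
      exact LaurentSeries.algebraMap_apply k r₀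
    rw [this, HahnSeries.order_C]
  refine eval₂_ne_zero_of_natDegree_lt φ hφ HahnSeries.order
    (fun x y hx hy => HahnSeries.order_mul hx hy) hord_unit Y hY u₀ hP hPinv c hc hordY q hq hdeg ?_
  rw [hqdef, eval₂_finsetSum]
  rw [← h]
  refine Finset.sum_congr rfl fun i _ => ?_
  rw [eval₂_mul, eval₂_C, eval₂_pow, eval₂_X]
  rfl

end Laurent

end Fermat.Agent.S28.IrrCore
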