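import Fermat.Agent.S28.ANDef
import Fermat.Agent.S28.IrrCore

/-!
# S28, Part IIb (second half): `1, ȳ, …, ȳ^(n-1)` are linearly independent over `𝔽_ℓ[j̄]`

Piece `linearIndependent_red_yUnit` of helper6088's skeleton, proved from the analytic data
`ANData N` by reducing it modulo a maximal ideal over `ℓ` and applying the abstract irreducibility
core `IrrCore.laurent_linearIndependent` (helper9508).  (helper3589)
-/

set_option autoImplicit false

noncomputable section

namespace Fermat.Agent.S28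

open ModularCurve Polynomial

namespace RedIndep

/-! ### Naturality of the formal objects under coefficient maps -/

section Naturality

variable {R S : Type*} [CommRing R] [CommRing S] (f : R →+* S)

theorem map_map_intCast (p : PowerSeries ℤ) :
    (p.map (Int.castRingHom R)).map f = p.map (Int.castRingHom S) := by
  rw [← RingHom.comp_apply (PowerSeries.map f) (PowerSeries.map (Int.castRingHom R)),
    ← PowerSeries.map_comp, RingHom.ext_int (f.comp (Int.castRingHom R)) (Int.castRingHom S)]

theorem coeffMap_deltaUnit :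
    coeffMap f (deltaUnit R : LaurentSeries R) = (deltaUnit S : LaurentSeries S) := by
  show coeffMap f (HahnSeries.single (1 : ℤ) (1 : R) *
    HahnSeries.ofPowerSeries ℤ R (dedekindEtaUnit.map (Int.castRingHom R))) =
    HahnSeries.single (1 : ℤ) (1 : S) *
    HahnSeries.ofPowerSeries ℤ S (dedekindEtaUnit.map (Int.castRingHom S))
  rw [map_mul, coeffMap_single, map_one, coeffMap_ofPowerSeries, map_map_intCast]

theorem unitsMap_deltaUnit :
    Units.map (coeffMap f : LaurentSeries R →* LaurentSeries S) (deltaUnit R) = deltaUnit S :=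
  Units.ext (coeffMap_deltaUnit f)

theorem unitsMap_deltaUnitAt (d : ℕ) [NeZero d] :
    Units.map (coeffMap f : LaurentSeries R →* LaurentSeries S) (deltaUnitAt R d) =
      deltaUnitAt S d := by
  apply Units.ext
  show coeffMap f (qExpand R d (deltaUnit R : LaurentSeries R)) =
    qExpand S d (deltaUnit S : LaurentSeries S)
  rw [coeffMap_qExpand, coeffMap_deltaUnit]

theorem unitsMap_deltaUnitAt' (d : ℕ) :
    Units.map (coeffMap f : LaurentSeries R →* LaurentSeries S) (deltaUnitAt' R d) =
      deltaUnitAt' S d := by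
  unfold deltaUnitAt'
  by_cases h : d = 0
  · rw [dif_pos h, dif_pos h, map_one]
  · rw [dif_neg h, dif_neg h]
    have : NeZero d := ⟨h⟩
    exact unitsMap_deltaUnitAt f d

theorem unitsMap_yUnit (N : ℕ) :
    Units.map (coeffMap f : LaurentSeries R →* LaurentSeries S) (yUnit R N) = yUnit S N := by
  unfold yUnit
  rw [map_mul, map_prod, map_zpow, unitsMap_deltaUnit]
  congr 1
  refine Finset.prod_congr rfl fun d _ => ?_
  rw [map_zpow, unitsMap_deltaUnitAt']

theorem coeffMap_yUnit (N : ℕ) :
    coeffMap f (yUnit R N : LaurentSeries R) = (yUnit S N : LaurentSeries S) := by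
  rw [← unitsMap_yUnit f N]
  rfl

theorem coeffMap_jt (N : ℕ) [NeZero N] : coeffMap f (jt R N) = jt S N := by
  unfold jt
  rw [coeffMap_qExpand, coeffMap_jqModC]

theorem algebraMap_eq_single (r : R) :
    algebraMap R (LaurentSeries R) r = HahnSeries.single 0 r := by
  rw [HahnSeries.algebraMap_apply']
  simp

theorem coeffMap_algebraMap' (r : R) :
    coeffMap f (algebraMap R (LaurentSeries R) r) = algebraMap S (LaurentSeries S) (f r) := by
  rw [algebraMap_eq_single, algebraMap_eq_single, coeffMap_single]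

theorem qExpand_algebraMap (N : ℕ) [NeZero N] (r : R) :
    qExpand R N (algebraMap R (LaurentSeries R) r) = algebraMap R (LaurentSeries R) r := by
  rw [algebraMap_eq_single, qExpand_single, mul_zero]

/-- the coefficient map intertwines `aeval (jt R N)` and `aeval (jt S N)` -/
theorem coeffMap_comp_aeval_jt (N : ℕ) [NeZero N] :
    (coeffMap f).comp ((Polynomial.aeval (R := R) (jt R N)).toRingHom) =
      ((Polynomial.aeval (R := S) (jt S N)).toRingHom).comp (Polynomial.mapRingHom f) := by
  apply Polynomial.ringHom_ext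
  · intro r
    simp only [RingHom.comp_apply, AlgHom.toRingHom_eq_coe, RingHom.coe_coe, aeval_C,
      coe_mapRingHom, map_C]
    exact coeffMap_algebraMap' f r
  · simp only [RingHom.comp_apply, AlgHom.toRingHom_eq_coe, RingHom.coe_coe, aeval_X,
      coe_mapRingHom, map_X]
    exact coeffMap_jt f N

/-- reduction of a polynomial with coefficients in `R[j]` has coefficients in `S[j]` -/
theorem map_mem_lifts (N : ℕ) [NeZero N] (P : (LaurentSeries R)[X])
    (hP : P ∈ Polynomial.lifts ((Polynomial.aeval (R := R) (jt R N)).toRingHom)) :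
    P.map (coeffMap f) ∈ Polynomial.lifts ((Polynomial.aeval (R := S) (jt S N)).toRingHom) := by
  obtain ⟨p, hp⟩ := hP
  have hp : p.map ((Polynomial.aeval (R := R) (jt R N)).toRingHom) = P := hp
  refine ⟨p.map (Polynomial.mapRingHom f), ?_⟩
  show (p.map (Polynomial.mapRingHom f)).map ((Polynomial.aeval (R := S) (jt S N)).toRingHom) = _
  rw [Polynomial.map_map, ← coeffMap_comp_aeval_jt, ← Polynomial.map_map, hp]

end Naturality

/-! ### Orders under coefficient maps -/

section Order

variable {R S : Type*} [CommRing R] [CommRing S] [Nontrivial S] (f : R →+* S)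

theorem order_coeffMap_of_isUnit (x : LaurentSeries R) (hx : IsUnit x.leadingCoeff) :
    (coeffMap f x).order = x.order := by
  have h1 : (coeffMap f x).coeff x.order ≠ 0 := by
    rw [coeffMap_coeff, ← HahnSeries.leadingCoeff_eq]
    exact (hx.map f).ne_zero
  have hne : coeffMap f x ≠ 0 := HahnSeries.ne_zero_of_coeff_ne_zero h1
  refine le_antisymm (HahnSeries.order_le_of_coeff_ne_zero h1) ?_
  rw [HahnSeries.le_order_iff_forall hne]
  intro j hj
  rw [coeffMap_coeff, HahnSeries.coeff_eq_zero_of_lt_order hj, map_zero]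

end Order

/-! ### The reduced data and the irreducibility core -/

section Core

theorem order_jt_neg (k : Type*) [Field k] (N : ℕ) [NeZero N] : (jt k N).order < 0 := by
  have h : (jt k N).coeff ((N : ℤ) * (-1)) ≠ 0 := by
    unfold jt
    rw [qExpand_coeff_mul, coeff_jqModC_neg_one]
    exact one_ne_zero
  have h1 := HahnSeries.order_le_of_coeff_ne_zero h
  have hN : (0 : ℤ) < N := by exact_mod_cast Nat.pos_of_ne_zero (NeZero.ne N)
  linarith

/-- the core statement over any field receiving the coefficient ring of the analytic data -/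
theorem core_indep (N : ℕ) [NeZero N] (D : ANData N) {k : Type*} [Field k] (π : D.R →+* k)
    (a : Fin (Fintype.card D.ι) → k[X])
    (h : ∑ i, Polynomial.aeval (jt k N) (a i) *
      (qExpand k N (yUnit k N : LaurentSeries k)) ^ (i : ℕ) = 0) : a = 0 := by
  have hbase : coeffMap π (D.Y D.u₀ : LaurentSeries D.R) =
      qExpand k N (yUnit k N : LaurentSeries k) := by
    rw [D.base_Y, coeffMap_qExpand, coeffMap_yUnit]
  have hN : (N : ℤ) ≠ 0 := by exact_mod_cast NeZero.ne N
  have hφ : (N.totient : ℤ) ≠ 0 := by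
    exact_mod_cast (Nat.totient_pos.mpr (Nat.pos_of_ne_zero (NeZero.ne N))).ne'
  refine IrrCore.laurent_linearIndependent (jt k N) (order_jt_neg k N)
    (fun u => coeffMap π (D.Y u : LaurentSeries D.R)) ?_ D.u₀ ?_ ?_
    ((N : ℤ) * (N.totient : ℤ)) (mul_ne_zero hN hφ) ?_ a ?_
  · intro u
    exact ((D.Y u).isUnit.map (coeffMap π)).ne_zero
  · have h1 := map_mem_lifts π N _ D.charpoly_Y
    rw [Polynomial.map_prod] at h1
    simp only [Polynomial.map_sub, Polynomial.map_X, Polynomial.map_C] at h1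
    exact h1
  · have h1 := map_mem_lifts π N _ D.charpoly_Yinv
    rw [Polynomial.map_prod] at h1
    have h2 : ∀ u : D.ι, (coeffMap π (D.Y u : LaurentSeries D.R))⁻¹ =
        coeffMap π (((D.Y u)⁻¹ : (LaurentSeries D.R)ˣ) : LaurentSeries D.R) := by
      intro u
      apply inv_eq_of_mul_eq_one_right
      rw [← map_mul, Units.mul_inv, map_one]
    simp only [h2]
    simp only [Polynomial.map_sub, Polynomial.map_X, Polynomial.map_C] at h1
    exact h1
  · intro u hu
    obtain ⟨h1, h2⟩ := D.order_Y u hu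
    rw [order_coeffMap_of_isUnit π _ h2, h1]
  · rw [hbase]
    exact h

end Core

/-! ### A residue field of characteristic `ℓ` for the coefficient ring -/

section Residue

theorem not_isUnit_natCast_Zl (ℓ : ℕ) [Fact ℓ.Prime] : ¬ IsUnit ((ℓ : ℕ) : Zl ℓ) := by
  intro h
  obtain ⟨s, hs⟩ := isUnit_iff_exists_inv.mp h
  have hs' : ((ℓ : ℕ) : ℚ) * (s : ℚ) = 1 := by
    have := congrArg (Subtype.val) hs
    simpa using this
  have hℓ0 : ((ℓ : ℕ) : ℚ) ≠ 0 := by
    exact_mod_cast (Fact.out : ℓ.Prime).ne_zero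
  have hsv : (s : ℚ) = ((ℓ : ℕ) : ℚ)⁻¹ := eq_inv_of_mul_eq_one_right hs'
  have hden : (s : ℚ).den = ℓ := by
    rw [hsv, Rat.inv_natCast_den, if_neg (Fact.out : ℓ.Prime).ne_zero]
  have hcop : (s : ℚ).den.Coprime ℓ := s.2
  rw [hden, Nat.coprime_self] at hcop
  exact (Fact.out : ℓ.Prime).one_lt.ne' hcop

theorem exists_residue (ℓ : ℕ) [Fact ℓ.Prime] (R : Subring ℂ)
    (hR : ∀ r : R, IsIntegral (Zl ℓ) (r : ℂ)) :
    ∃ (k : Type) (_ : Field k) (_ : CharP k ℓ), Nonempty (R →+* k) := by
  classical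
  obtain ⟨P, hPmax, hP⟩ := Ideal.exists_le_maximal (Ideal.span {((ℓ : ℕ) : Zl ℓ)})
    (by rw [Ne, Ideal.span_singleton_eq_top]; exact not_isUnit_natCast_Zl ℓ)
  have hinj : Function.Injective (algebraMap (Zl ℓ) (integralClosure (Zl ℓ) ℂ)) := by
    intro x y hxy
    have h1 : ((algebraMap (Zl ℓ) (integralClosure (Zl ℓ) ℂ) x : integralClosure (Zl ℓ) ℂ) : ℂ) =
        ((algebraMap (Zl ℓ) (integralClosure (Zl ℓ) ℂ) y : integralClosure (Zl ℓ) ℂ) : ℂ) := by
      rw [hxy]
    have h2 : (((x : ℚ) : ℂ)) = (((y : ℚ) : ℂ)) := h1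
    exact Subtype.ext (by exact_mod_cast h2)
  have hker : RingHom.ker (algebraMap (Zl ℓ) (integralClosure (Zl ℓ) ℂ)) ≤ P := by
    rw [(RingHom.injective_iff_ker_eq_bot _).mp hinj]
    exact bot_le
  obtain ⟨Q, hQmax, hQ⟩ := Ideal.exists_ideal_over_maximal_of_isIntegral P hker
  let _ : Field (integralClosure (Zl ℓ) ℂ ⧸ Q) := Ideal.Quotient.field Q
  have hzero : ((ℓ : ℕ) : integralClosure (Zl ℓ) ℂ ⧸ Q) = 0 := by
    have h1 : ((ℓ : ℕ) : Zl ℓ) ∈ P := hP (Ideal.subset_span rfl)
    rw [← hQ, Ideal.mem_comap, map_natCast] at h1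
    have h2 := Ideal.Quotient.eq_zero_iff_mem.mpr h1
    rwa [map_natCast] at h2
  refine ⟨integralClosure (Zl ℓ) ℂ ⧸ Q, inferInstance,
    (CharP.charP_iff_prime_eq_zero (Fact.out : ℓ.Prime)).mpr hzero,
    ⟨(Ideal.Quotient.mk Q).comp (R.subtype.codRestrict (integralClosure (Zl ℓ) ℂ) hR)⟩⟩

end Residue

end RedIndep

/-- **Part IIb** (char ℓ), second half: `1, ȳ, …, ȳ^(n-1)` are linearly independent over
`𝔽_ℓ[j̄]` (exact statement of the skeleton piece). -/
theorem linearIndependent_red_yUnit (N : ℕ) [NeZero N] (ℓ : ℕ) [Fact ℓ.Prime] (hℓN : ¬ ℓ ∣ N)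
    (D : ANData N) (a : Fin (Fintype.card D.ι) → (ZMod ℓ)[X])
    (h : ∑ i, Polynomial.aeval (jqModC (ZMod ℓ)) (a i) *
      (yUnit (ZMod ℓ) N : LaurentSeries (ZMod ℓ)) ^ (i : ℕ) = 0) : a = 0 := by
  obtain ⟨k, _, _, ⟨π⟩⟩ := RedIndep.exists_residue ℓ D.R (D.integral ℓ Fact.out hℓN)
  let ι : ZMod ℓ →+* k := ZMod.castHom (dvd_refl ℓ) k
  let σ : LaurentSeries (ZMod ℓ) →+* LaurentSeries k := (qExpand k N).comp (coeffMap ι)
  have hσalg : σ.comp (algebraMap (ZMod ℓ) (LaurentSeries (ZMod ℓ))) =
      (algebraMap k (LaurentSeries k)).comp ι := by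
    ext r
    simp only [σ, RingHom.comp_apply]
    rw [RedIndep.coeffMap_algebraMap', RedIndep.qExpand_algebraMap]
  have hσj : σ (jqModC (ZMod ℓ)) = jt k N := by
    simp only [σ, RingHom.comp_apply]
    rw [coeffMap_jqModC]
    rfl
  have hσy : σ (yUnit (ZMod ℓ) N : LaurentSeries (ZMod ℓ)) =
      qExpand k N (yUnit k N : LaurentSeries k) := by
    simp only [σ, RingHom.comp_apply]
    rw [RedIndep.coeffMap_yUnit]
  have h' : ∑ i, Polynomial.aeval (jt k N) ((a i).map ι) *
      (qExpand k N (yUnit k N : LaurentSeries k)) ^ (i : ℕ) = 0 := by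
    have h1 := congrArg σ h
    rw [map_zero, map_sum] at h1
    rw [← h1]
    refine Finset.sum_congr rfl fun i _ => ?_
    rw [map_mul, map_pow, hσy]
    congr 1
    rw [Polynomial.aeval_def, Polynomial.aeval_def, Polynomial.hom_eval₂, hσalg, hσj,
      Polynomial.eval₂_map]
  have h0 := RedIndep.core_indep N D π (fun i => (a i).map ι) h'
  funext i
  have hi : (a i).map ι = 0 := congrFun h0 i
  exact Polynomial.map_injective ι ι.injective (by rw [hi, Pi.zero_apply, Polynomial.map_zero])

end Fermat.Agent.S28
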