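import Fermat.Agent.S28.Defs

/-!
# S28, Part IIa (char 0 algebra): every element of `F = ℚ(j(q^d) : d ∣ N)` is a `ℚ(j)`-combination of
`1, y, …, y^(n-1)`  (unbundled form `span_core`; the skeleton statement `span_of_ANData` is in `Span.lean`)

Proof: inside `L = ℂ((t))` (`t = q^(1/N)`) let `K₀ = ℂ(j(t^N))` and `E = K₀(y)`.
* `y` is a root of the monic `P = ∏ (X - Y_u) ∈ K₀[X]` of degree `n`, so `E = ⊕_{i<n} K₀ y^i`.
* Lagrange: `j_d = L_d(y) / P'(y) ∈ E`  (`P'(y) = ∏_{u ≠ u₀} (y - Y_u) ≠ 0`; the `Y_u`, `u ≠ u₀`, differ from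
  `y` because `∏ Y_u` is a unit of `R[j]`, i.e. a constant, so `∑ ord Y_u = 0`).
* hence the image of `F` lies in `E`; clear denominators; descend the coefficients from `ℂ` to `ℚ` with a
  `ℚ`-linear functional `ℂ → ℚ`.
-/

set_option autoImplicit false

noncomputable section

namespace Fermat.Agent.S28.Span5369

open ModularCurve Polynomial

section LaurentBasics

theorem algebraMap_laurent_eq_C {R : Type*} [CommRing R] (r : R) :
    (algebraMap R (LaurentSeries R)) r = HahnSeries.C r := by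
  have h1 : algebraMap R (PowerSeries R) r = PowerSeries.C r := by
    simp
  rw [HahnSeries.algebraMap_apply', h1, HahnSeries.ofPowerSeries_C]

theorem coeff_smul_laurent {R : Type*} [CommRing R] (r : R) (x : LaurentSeries R) (a : ℤ) :
    (@HSMul.hSMul R (LaurentSeries R) (LaurentSeries R) (@instHSMul _ _ Algebra.toSMul) r x).coeff a
      = r * x.coeff a := by
  rw [Algebra.smul_def, algebraMap_laurent_eq_C, HahnSeries.C_mul_eq_smul]
  rfl

end LaurentBasics

section Naturality

variable {R S : Type*} [CommRing R] [CommRing S]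

theorem coeffMap_injective (f : R →+* S) (hf : Function.Injective f) :
    Function.Injective (coeffMap f) := by
  intro x y h
  ext k
  apply hf
  have := congrArg (fun z => z.coeff k) h
  simpa using this

theorem units_map_deltaUnit (f : R →+* S) :
    Units.map (coeffMap f : LaurentSeries R →* LaurentSeries S) (deltaUnit R) = deltaUnit S := by
  ext1
  show coeffMap f (HahnSeries.single (1 : ℤ) (1 : R) *
    HahnSeries.ofPowerSeries ℤ R (dedekindEtaUnit.map (Int.castRingHom R))) = _
  rw [map_mul, coeffMap_single, map_one, coeffMap_ofPowerSeries,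
    ← RingHom.comp_apply (PowerSeries.map f) (PowerSeries.map (Int.castRingHom R)),
    ← PowerSeries.map_comp, RingHom.ext_int (f.comp (Int.castRingHom R)) (Int.castRingHom S)]
  rfl

theorem units_map_deltaUnitAt' (f : R →+* S) (d : ℕ) :
    Units.map (coeffMap f : LaurentSeries R →* LaurentSeries S) (deltaUnitAt' R d)
      = deltaUnitAt' S d := by
  unfold deltaUnitAt'
  split_ifs with h
  · exact map_one _
  · have : NeZero d := ⟨h⟩
    ext1
    show coeffMap f (qExpand R d (deltaUnit R : LaurentSeries R)) =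
      qExpand S d (deltaUnit S : LaurentSeries S)
    rw [coeffMap_qExpand, ← units_map_deltaUnit f]
    rfl

theorem units_map_yUnit (f : R →+* S) (N : ℕ) :
    Units.map (coeffMap f : LaurentSeries R →* LaurentSeries S) (yUnit R N) = yUnit S N := by
  unfold yUnit
  rw [map_mul, map_zpow, map_prod, units_map_deltaUnit]
  congr 1
  refine Finset.prod_congr rfl fun d _ => ?_
  rw [map_zpow, units_map_deltaUnitAt']

theorem coeffMap_yUnit (f : R →+* S) (N : ℕ) :
    coeffMap f (yUnit R N : LaurentSeries R) = (yUnit S N : LaurentSeries S) := by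
  rw [← units_map_yUnit f N]
  rfl

end Naturality

section Tower

variable {k L : Type*} [Field k] [Field L] [Algebra k L]
variable {ι : Type*} [Fintype ι] [DecidableEq ι]

theorem exists_ratio_of_mem_adjoin (j : L) (c : L) (hc : c ∈ IntermediateField.adjoin k {j}) :
    ∃ a b : k[X], b ≠ 0 ∧ c * aeval j b = aeval j a := by
  obtain ⟨r, s, rfl⟩ := (IntermediateField.mem_adjoin_simple_iff k c).mp hc
  by_cases hs : aeval j s = 0
  · exact ⟨0, 1, one_ne_zero, by simp [hs]⟩
  · refine ⟨r, s, ?_, div_mul_cancel₀ _ hs⟩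
    rintro rfl
    exact hs (map_zero _)

omit [DecidableEq ι] in
theorem exists_repr_of_mem (j : L) (v : ι → L) (u₀ : ι)
    (p : (IntermediateField.adjoin k {j})[X])
    (hp : p.map (algebraMap (IntermediateField.adjoin k {j}) L) = ∏ u, (X - C (v u)))
    (z : L) (hz : z ∈ IntermediateField.adjoin (IntermediateField.adjoin k {j}) {v u₀}) :
    ∃ (B : k[X]) (A : Fin (Fintype.card ι) → k[X]), B ≠ 0 ∧
      z * aeval j B = ∑ i, aeval j (A i) * v u₀ ^ (i : ℕ) := by
  classical
  have hmonic : p.Monic := by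
    apply monic_of_injective (algebraMap (IntermediateField.adjoin k {j}) L).injective
    rw [hp]
    exact monic_prod_of_monic _ _ fun u _ => monic_X_sub_C (v u)
  have hdeg : p.natDegree = Fintype.card ι := by
    rw [← natDegree_map (algebraMap (IntermediateField.adjoin k {j}) L), hp,
      natDegree_finsetProd_X_sub_C_eq_card, Finset.card_univ]
  have hroot : aeval (v u₀) p = 0 := by
    rw [aeval_def, ← eval_map, hp, eval_prod]
    exact Finset.prod_eq_zero (Finset.mem_univ u₀) (by simp)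
  have hint : IsIntegral (IntermediateField.adjoin k {j}) (v u₀) := ⟨p, hmonic, hroot⟩
  have hz' : z ∈ Algebra.adjoin (IntermediateField.adjoin k {j}) {v u₀} := by
    rw [← IntermediateField.adjoin_simple_toSubalgebra_of_isAlgebraic hint.isAlgebraic]
    exact hz
  rw [Algebra.adjoin_singleton_eq_range_aeval] at hz'
  obtain ⟨f, rfl⟩ := hz'
  have hp1 : p ≠ 1 := by
    intro h
    rw [h, natDegree_one] at hdeg
    have : Nonempty ι := ⟨u₀⟩
    exact Fintype.card_ne_zero hdeg.symm
  have hr : aeval (v u₀) (f %ₘ p) = aeval (v u₀) f :=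
    aeval_modByMonic_eq_self_of_root hroot
  have hrdeg : (f %ₘ p).natDegree < Fintype.card ι := hdeg ▸ natDegree_modByMonic_lt f hmonic hp1
  have hc : ∀ c : IntermediateField.adjoin k {j}, ∃ a b : k[X], b ≠ 0 ∧
      (c : L) * aeval j b = aeval j a := fun c => exists_ratio_of_mem_adjoin j c c.2
  choose a b hb hab using hc
  refine ⟨∏ i : Fin (Fintype.card ι), b ((f %ₘ p).coeff i),
    fun i => a ((f %ₘ p).coeff i) * ∏ i' ∈ Finset.univ.erase i, b ((f %ₘ p).coeff i'),
    Finset.prod_ne_zero_iff.mpr fun i _ => hb _, ?_⟩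
  show (aeval (v u₀)) f * _ = _
  rw [← hr, aeval_eq_sum_range' hrdeg,
    Finset.sum_range (f := fun i => (f %ₘ p).coeff i • v u₀ ^ i), Finset.sum_mul]
  refine Finset.sum_congr rfl fun i _ => ?_
  rw [← Finset.mul_prod_erase Finset.univ _ (Finset.mem_univ i), map_mul, map_mul,
    Algebra.smul_def, ← hab]
  show ((f %ₘ p).coeff i : L) * _ * _ = _
  ring

theorem lagrange_mem (j : L) (v w : ι → L) (u₀ : ι)
    (p q : (IntermediateField.adjoin k {j})[X])
    (hp : p.map (algebraMap (IntermediateField.adjoin k {j}) L) = ∏ u, (X - C (v u)))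
    (hq : q.map (algebraMap (IntermediateField.adjoin k {j}) L) =
      ∑ u, C (w u) * ∏ u' ∈ Finset.univ.erase u, (X - C (v u')))
    (hne : ∀ u, u ≠ u₀ → v u ≠ v u₀) :
    w u₀ ∈ IntermediateField.adjoin (IntermediateField.adjoin k {j}) {v u₀} := by
  classical
  have hy : v u₀ ∈ IntermediateField.adjoin (IntermediateField.adjoin k {j}) {v u₀} :=
    IntermediateField.mem_adjoin_simple_self _ _
  have hmem : ∀ g : (IntermediateField.adjoin k {j})[X], aeval (v u₀) g ∈
      IntermediateField.adjoin (IntermediateField.adjoin k {j}) {v u₀} := by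
    intro g
    have h := aeval_algHom_apply
      (IntermediateField.adjoin (IntermediateField.adjoin k {j}) {v u₀}).val ⟨v u₀, hy⟩ g
    have h' : aeval (v u₀) g = ((aeval (⟨v u₀, hy⟩ :
        IntermediateField.adjoin (IntermediateField.adjoin k {j}) {v u₀}) g :
        IntermediateField.adjoin (IntermediateField.adjoin k {j}) {v u₀}) : L) := h
    rw [h']
    exact Subtype.property _
  have e1 : aeval (v u₀) q = w u₀ * ∏ u' ∈ Finset.univ.erase u₀, (v u₀ - v u') := by
    rw [aeval_def, ← eval_map, hq, eval_finsetSum, Finset.sum_eq_single u₀]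
    · simp [eval_prod]
    · intro u _ hu
      rw [eval_mul, eval_prod]
      rw [Finset.prod_eq_zero (i := u₀) (Finset.mem_erase.mpr ⟨hu.symm, Finset.mem_univ _⟩)
        (by simp), mul_zero]
    · intro h
      exact absurd (Finset.mem_univ u₀) h
  have e2 : aeval (v u₀) (derivative p) = ∏ u' ∈ Finset.univ.erase u₀, (v u₀ - v u') := by
    rw [aeval_def, ← eval_map, ← derivative_map, hp, ← Lagrange.nodal_eq,
      Lagrange.eval_nodal_derivative_eval_node_eq (Finset.mem_univ u₀), Lagrange.eval_nodal]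
  have hQ : ∏ u' ∈ Finset.univ.erase u₀, (v u₀ - v u') ≠ 0 :=
    Finset.prod_ne_zero_iff.mpr fun u hu =>
      sub_ne_zero.mpr (hne u (Finset.ne_of_mem_erase hu)).symm
  have : w u₀ = aeval (v u₀) q / aeval (v u₀) (derivative p) := by
    rw [e1, e2, mul_div_cancel_right₀ _ hQ]
  rw [this]
  exact div_mem (hmem q) (hmem _)

end Tower

section Distinct

variable {R : Type*} [CommRing R] [IsDomain R]

omit [IsDomain R] in
theorem aeval_jt_injective (N : ℕ) [NeZero N] :
    Function.Injective (aeval (R := R) (jt R N)) := by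
  rw [injective_iff_map_eq_zero]
  intro p hp
  by_contra hne
  have hlc : p.leadingCoeff ≠ 0 := leadingCoeff_ne_zero.mpr hne
  apply hlc
  have hcoeff : (aeval (jt R N) p).coeff ((N : ℤ) * (-(p.natDegree : ℤ))) = p.leadingCoeff := by
    rw [aeval_eq_sum_range, HahnSeries.coeff_sum, Finset.sum_eq_single p.natDegree]
    · rw [coeff_smul_laurent, jt, ← map_pow, qExpand_coeff_mul, coeff_jqModC_pow_self, mul_one]
      rfl
    · intro k hk hkne
      have hlt : k < p.natDegree :=
        lt_of_le_of_ne (Nat.lt_succ_iff.mp (Finset.mem_range.mp hk)) hkne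
      rw [coeff_smul_laurent, jt, ← map_pow, qExpand_coeff_mul,
        coeff_jqModC_pow_of_lt R (by exact_mod_cast neg_lt_neg (Nat.cast_lt (α := ℤ) |>.mpr hlt)),
        mul_zero]
    · intro h
      exact absurd (Finset.mem_range.mpr (Nat.lt_succ_self _)) h
  rw [← hcoeff, hp]
  rfl

theorem sum_order_eq_zero (N : ℕ) [NeZero N] {ι : Type*} [Fintype ι] [DecidableEq ι]
    (Y : ι → (LaurentSeries R)ˣ)
    (hP : ∏ u : ι, (X - C (Y u : LaurentSeries R)) ∈
      Polynomial.lifts ((Polynomial.aeval (R := R) (jt R N)).toRingHom))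
    (hPinv : ∏ u : ι, (X - C (((Y u)⁻¹ : (LaurentSeries R)ˣ) : LaurentSeries R)) ∈
      Polynomial.lifts ((Polynomial.aeval (R := R) (jt R N)).toRingHom)) :
    ∑ u, (Y u : LaurentSeries R).order = 0 := by
  classical
  obtain ⟨a, ha⟩ := (lifts_iff_coeff_lifts _).mp hP 0
  obtain ⟨a', ha'⟩ := (lifts_iff_coeff_lifts _).mp hPinv 0
  have e : ∀ Z : ι → LaurentSeries R, (∏ u, (X - C (Z u))).coeff 0 = ∏ u, (-(Z u)) := by
    intro Z
    rw [coeff_zero_eq_eval_zero, eval_prod]
    simp
  rw [e] at ha ha'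
  have ha1 : aeval (jt R N) a = ∏ u, (-(Y u : LaurentSeries R)) := ha
  have ha2 : aeval (jt R N) a' = ∏ u, (-(((Y u)⁻¹ : (LaurentSeries R)ˣ) : LaurentSeries R)) := ha'
  have hmul : aeval (jt R N) (a * a') = 1 := by
    rw [map_mul, ha1, ha2, ← Finset.prod_mul_distrib]
    refine Finset.prod_eq_one fun u _ => ?_
    rw [neg_mul_neg, Units.mul_inv]
  have haa' : a * a' = 1 := aeval_jt_injective N (by rw [hmul, map_one])
  have hunit : IsUnit a := IsUnit.of_mul_eq_one a' haa'
  obtain ⟨r, hr, rfl⟩ := Polynomial.isUnit_iff.mp hunit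
  have hprod : ∏ u, (-(Y u : LaurentSeries R)) = HahnSeries.C r := by
    rw [← ha1, aeval_C, algebraMap_laurent_eq_C]
  have hord : (∏ u, (-(Y u : LaurentSeries R))).order = 0 := by
    rw [hprod, HahnSeries.order_C]
  have key : ∀ s : Finset ι, (∏ u ∈ s, (-(Y u : LaurentSeries R))).order =
      ∑ u ∈ s, (Y u : LaurentSeries R).order := by
    intro s
    induction s using Finset.induction_on with
    | empty => simp
    | insert u s hu ih =>
      rw [Finset.prod_insert hu, Finset.sum_insert hu,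
        HahnSeries.order_mul (neg_ne_zero.mpr (Y u).ne_zero)
          (Finset.prod_ne_zero_iff.mpr fun v _ => neg_ne_zero.mpr (Y v).ne_zero), ih,
        HahnSeries.order_neg]
  rw [← key, hord]

theorem Y_ne_base (N : ℕ) [NeZero N] {ι : Type*} [Fintype ι] [DecidableEq ι] (u₀ : ι)
    (Y : ι → (LaurentSeries R)ˣ)
    (hP : ∏ u : ι, (X - C (Y u : LaurentSeries R)) ∈
      Polynomial.lifts ((Polynomial.aeval (R := R) (jt R N)).toRingHom))
    (hPinv : ∏ u : ι, (X - C (((Y u)⁻¹ : (LaurentSeries R)ˣ) : LaurentSeries R)) ∈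
      Polynomial.lifts ((Polynomial.aeval (R := R) (jt R N)).toRingHom))
    (hord : ∀ u, u ≠ u₀ → (Y u : LaurentSeries R).order = -((N : ℤ) * (N.totient : ℤ)))
    (u : ι) (hu : u ≠ u₀) : (Y u : LaurentSeries R) ≠ Y u₀ := by
  intro heq
  have hsum := sum_order_eq_zero N Y hP hPinv
  have hall : ∀ v, (Y v : LaurentSeries R).order = -((N : ℤ) * (N.totient : ℤ)) := by
    intro v
    by_cases hv : v = u₀
    · rw [hv, ← heq]
      exact hord u hu
    · exact hord v hv
  rw [Finset.sum_congr rfl (fun v _ => hall v), Finset.sum_const, Finset.card_univ,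
    nsmul_eq_mul] at hsum
  have hcard : (0 : ℤ) < Fintype.card ι := by
    have : Nonempty ι := ⟨u₀⟩
    exact_mod_cast Fintype.card_pos (α := ι)
  have hN : (0 : ℤ) < N := by exact_mod_cast Nat.pos_of_ne_zero (NeZero.ne N)
  have hphi : (0 : ℤ) < N.totient := by
    exact_mod_cast Nat.totient_pos.mpr (Nat.pos_of_ne_zero (NeZero.ne N))
  nlinarith [mul_pos hN hphi, mul_pos hcard (mul_pos hN hphi)]

end Distinct

section Descent

/-- apply a `ℚ`-linear functional to the coefficients of a complex polynomial -/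
def polyApply (lam : ℂ →ₗ[ℚ] ℚ) (p : ℂ[X]) : ℚ[X] :=
  ∑ k ∈ p.support, monomial k (lam (p.coeff k))

theorem polyApply_coeff (lam : ℂ →ₗ[ℚ] ℚ) (p : ℂ[X]) (k : ℕ) :
    (polyApply lam p).coeff k = lam (p.coeff k) := by
  unfold polyApply
  rw [finsetSum_coeff]
  simp only [coeff_monomial]
  rw [Finset.sum_ite_eq']
  split_ifs with h
  · rfl
  · rw [notMem_support_iff.mp h, map_zero]

theorem polyApply_natDegree_le (lam : ℂ →ₗ[ℚ] ℚ) (p : ℂ[X]) :
    (polyApply lam p).natDegree ≤ p.natDegree := by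
  rw [natDegree_le_iff_coeff_eq_zero]
  intro k hk
  rw [polyApply_coeff, coeff_eq_zero_of_natDegree_lt hk, map_zero]

theorem descent_coeff (lam : ℂ →ₗ[ℚ] ℚ) (p : ℂ[X]) (v w : LaurentSeries ℚ) (m : ℤ) :
    lam ((coeffMap (algebraMap ℚ ℂ) v * aeval (coeffMap (algebraMap ℚ ℂ) w) p).coeff m) =
      (v * aeval w (polyApply lam p)).coeff m := by
  rw [aeval_eq_sum_range' (Nat.lt_succ_self p.natDegree),
    aeval_eq_sum_range' (Nat.lt_succ_of_le (polyApply_natDegree_le lam p)),
    Finset.mul_sum, Finset.mul_sum, HahnSeries.coeff_sum, HahnSeries.coeff_sum, map_sum]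
  refine Finset.sum_congr rfl fun k _ => ?_
  rw [Algebra.mul_smul_comm, Algebra.mul_smul_comm, coeff_smul_laurent, coeff_smul_laurent, ← map_pow, ← map_mul,
    coeffMap_coeff, polyApply_coeff]
  rw [mul_comm (p.coeff k), ← Algebra.smul_def, map_smul, smul_eq_mul, mul_comm]

theorem exists_functional (β : ℂ) (hβ : β ≠ 0) : ∃ lam : ℂ →ₗ[ℚ] ℚ, lam β ≠ 0 := by
  by_contra h
  exact hβ ((Module.forall_dual_apply_eq_zero_iff ℚ β).mp fun lam => not_not.mp fun h' => h ⟨lam, h'⟩)

end Descent

section Assembly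

/-- the ring hom `R[X] → ℂ(j(t^N))`, `X ↦ j(t^N)` -/
def liftHom (N : ℕ) [NeZero N] (R : Subring ℂ) :
    Polynomial R →+* (IntermediateField.adjoin ℂ {jt ℂ N}) :=
  Polynomial.eval₂RingHom ((algebraMap ℂ (IntermediateField.adjoin ℂ {jt ℂ N})).comp R.subtype)
    ⟨jt ℂ N, IntermediateField.mem_adjoin_simple_self ℂ _⟩

theorem algebraMap_comp_liftHom (N : ℕ) [NeZero N] (R : Subring ℂ) :
    (algebraMap (IntermediateField.adjoin ℂ {jt ℂ N}) (LaurentSeries ℂ)).comp (liftHom N R) =
      (coeffMap R.subtype).comp (Polynomial.aeval (R := R) (jt R N)).toRingHom := by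
  apply Polynomial.ringHom_ext
  · intro r
    show ((liftHom N R (C r) : IntermediateField.adjoin ℂ {jt ℂ N}) : LaurentSeries ℂ) =
      coeffMap R.subtype (aeval (jt R N) (C r))
    rw [aeval_C, algebraMap_laurent_eq_C, liftHom, Polynomial.coe_eval₂RingHom, eval₂_C]
    show algebraMap ℂ (LaurentSeries ℂ) (r : ℂ) = _
    rw [algebraMap_laurent_eq_C]
    show _ = coeffMap R.subtype (HahnSeries.single 0 r)
    rw [coeffMap_single]
    rfl
  · show ((liftHom N R X : IntermediateField.adjoin ℂ {jt ℂ N}) : LaurentSeries ℂ) =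
      coeffMap R.subtype (aeval (jt R N) X)
    rw [aeval_X, liftHom, Polynomial.coe_eval₂RingHom, eval₂_X]
    show jt ℂ N = coeffMap R.subtype (qExpand R N (jqModC R))
    rw [coeffMap_qExpand, coeffMap_jqModC]
    rfl

theorem exists_lift (N : ℕ) [NeZero N] (R : Subring ℂ) (f : Polynomial (LaurentSeries R))
    (hf : f ∈ Polynomial.lifts ((Polynomial.aeval (R := R) (jt R N)).toRingHom)) :
    ∃ p : Polynomial (IntermediateField.adjoin ℂ {jt ℂ N}),
      p.map (algebraMap (IntermediateField.adjoin ℂ {jt ℂ N}) (LaurentSeries ℂ)) =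
        f.map (coeffMap R.subtype) := by
  obtain ⟨g, rfl⟩ := (mem_lifts f).mp hf
  exact ⟨g.map (liftHom N R), by
    rw [Polynomial.map_map, algebraMap_comp_liftHom, ← Polynomial.map_map]⟩

/-- **Part IIa** in unbundled form. -/
theorem span_core (N : ℕ) [NeZero N] (R : Subring ℂ) {ι : Type} [Fintype ι] [DecidableEq ι]
    (u₀ : ι) (Y : ι → (LaurentSeries R)ˣ) (J : ι → ℕ → LaurentSeries R)
    (base_Y : (Y u₀ : LaurentSeries R) = qExpand R N (yUnit R N))
    (base_J : ∀ (d : ℕ) [NeZero d], d ∣ N → J u₀ d = qExpand R N (qExpand R d (jqModC R)))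
    (charpoly_Y : ∏ u : ι, (X - C (Y u : LaurentSeries R)) ∈
      Polynomial.lifts ((Polynomial.aeval (R := R) (jt R N)).toRingHom))
    (charpoly_Yinv : ∏ u : ι, (X - C (((Y u)⁻¹ : (LaurentSeries R)ˣ) : LaurentSeries R)) ∈
      Polynomial.lifts ((Polynomial.aeval (R := R) (jt R N)).toRingHom))
    (lagrange : ∀ (d : ℕ), d ∣ N →
      ∑ u : ι, C (J u d) * ∏ u' ∈ Finset.univ.erase u, (X - C (Y u' : LaurentSeries R)) ∈
        Polynomial.lifts ((Polynomial.aeval (R := R) (jt R N)).toRingHom))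
    (order_Y : ∀ u, u ≠ u₀ → (Y u : LaurentSeries R).order = -((N : ℤ) * (N.totient : ℤ)))
    (x : LaurentSeries ℚ) (hx : x ∈ modularFunctionFieldFull N) :
    ∃ (b : Polynomial ℚ) (a : Fin (Fintype.card ι) → Polynomial ℚ), b ≠ 0 ∧
      x * Polynomial.aeval jq b =
        ∑ i, Polynomial.aeval jq (a i) * (yUnit ℚ N : LaurentSeries ℚ) ^ (i : ℕ) := by
  classical
  obtain ⟨p, hp⟩ := exists_lift N R _ charpoly_Y
  have hp' : p.map (algebraMap (IntermediateField.adjoin ℂ {jt ℂ N}) (LaurentSeries ℂ)) =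
      ∏ u, (X - C ((coeffMap R.subtype) (Y u))) := by
    rw [hp, Polynomial.map_prod]
    simp
  have hne : ∀ u, u ≠ u₀ → (coeffMap R.subtype) (Y u) ≠ (coeffMap R.subtype) (Y u₀) := fun u hu h =>
    Y_ne_base N u₀ Y charpoly_Y charpoly_Yinv order_Y u hu
      (coeffMap_injective _ Subtype.val_injective h)
  have hgen : ∀ (d : ℕ) [NeZero d], d ∣ N →
      qExpand ℂ N (coeffMap (algebraMap ℚ ℂ) (qExpand ℚ d jq)) ∈
        IntermediateField.adjoin (IntermediateField.adjoin ℂ {jt ℂ N}) {(coeffMap R.subtype) (Y u₀)} := by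
    intro d _ hd
    obtain ⟨q, hq⟩ := exists_lift N R _ (lagrange d hd)
    have hq' : q.map (algebraMap (IntermediateField.adjoin ℂ {jt ℂ N}) (LaurentSeries ℂ)) =
        ∑ u, C ((coeffMap R.subtype) (J u d)) * ∏ u' ∈ Finset.univ.erase u, (X - C ((coeffMap R.subtype) (Y u'))) := by
      rw [hq, Polynomial.map_sum]
      simp [Polynomial.map_prod]
    have h := lagrange_mem (jt ℂ N) (fun u => (coeffMap R.subtype) (Y u)) (fun u => (coeffMap R.subtype) (J u d)) u₀ p q hp' hq' hne
    have e : (coeffMap R.subtype) (J u₀ d) = qExpand ℂ N (coeffMap (algebraMap ℚ ℂ) (qExpand ℚ d jq)) := by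
      rw [base_J d hd, coeffMap_qExpand, coeffMap_qExpand, coeffMap_qExpand, ← jqModC_rat,
        coeffMap_jqModC, coeffMap_jqModC]
    rw [← e]
    exact h
  have hmem : qExpand ℂ N (coeffMap (algebraMap ℚ ℂ) x) ∈
      IntermediateField.adjoin (IntermediateField.adjoin ℂ {jt ℂ N}) {(coeffMap R.subtype) (Y u₀)} := by
    have hle : Subfield.closure (Set.range (algebraMap ℚ (LaurentSeries ℚ)) ∪ divisorExpansions N) ≤
        (IntermediateField.adjoin (IntermediateField.adjoin ℂ {jt ℂ N}) {(coeffMap R.subtype) (Y u₀)}).toSubfield.comap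
          ((qExpand ℂ N).comp (coeffMap (algebraMap ℚ ℂ))) := by
      rw [Subfield.closure_le]
      rintro z (⟨r, rfl⟩ | ⟨d, hd0, hd, rfl⟩)
      · show ((qExpand ℂ N).comp (coeffMap (algebraMap ℚ ℂ))) (algebraMap ℚ _ r) ∈
          IntermediateField.adjoin (IntermediateField.adjoin ℂ {jt ℂ N}) {(coeffMap R.subtype) (Y u₀)}
        rw [RingHom.map_rat_algebraMap, eq_ratCast]
        exact SubfieldClass.ratCast_mem _ r
      · have := hd0
        exact hgen d hd
    exact hle hx
  obtain ⟨B, A, hB, hBA⟩ := exists_repr_of_mem (jt ℂ N) (fun u => (coeffMap R.subtype) (Y u)) u₀ p hp' _ hmem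
  have hjt : jt ℂ N = qExpandAlgHomC ℂ N (coeffMap (algebraMap ℚ ℂ) jq) := by
    rw [qExpandAlgHomC_apply, ← jqModC_rat, coeffMap_jqModC]
    rfl
  have hY₀ : (coeffMap R.subtype) (Y u₀) = qExpand ℂ N (coeffMap (algebraMap ℚ ℂ) (yUnit ℚ N : LaurentSeries ℚ)) := by
    rw [base_Y, coeffMap_qExpand, coeffMap_yUnit, coeffMap_yUnit]
  have hae : ∀ g : Polynomial ℂ, qExpand ℂ N (aeval (coeffMap (algebraMap ℚ ℂ) jq) g) =
      aeval (jt ℂ N) g := by
    intro g
    rw [hjt]
    exact (aeval_algHom_apply (qExpandAlgHomC ℂ N) _ g).symm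
  have hq : coeffMap (algebraMap ℚ ℂ) x * aeval (coeffMap (algebraMap ℚ ℂ) jq) B =
      ∑ i, aeval (coeffMap (algebraMap ℚ ℂ) jq) (A i) *
        (coeffMap (algebraMap ℚ ℂ) (yUnit ℚ N : LaurentSeries ℚ)) ^ (i : ℕ) := by
    apply qExpand_injective (R := ℂ) N
    rw [map_mul, map_sum]
    simp only [map_mul, map_pow, hae, ← hY₀]
    exact hBA
  obtain ⟨lam, hlam⟩ := exists_functional B.leadingCoeff (leadingCoeff_ne_zero.mpr hB)
  refine ⟨polyApply lam B, fun i => polyApply lam (A i), ?_, ?_⟩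
  · intro h0
    apply hlam
    have := polyApply_coeff lam B B.natDegree
    rw [h0, coeff_zero] at this
    exact this.symm
  · ext m
    rw [← descent_coeff, hq, HahnSeries.coeff_sum, map_sum, HahnSeries.coeff_sum]
    refine Finset.sum_congr rfl fun i _ => ?_
    rw [mul_comm (aeval jq _), ← descent_coeff, map_pow, mul_comm]

end Assembly

end Fermat.Agent.S28.Span5369
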