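import Fermat.Agent.S28.ANDef
import Fermat.Agent.S28.SpanCore

/-!
# S28, Part IIa (char 0): every element of `F` is a `ℚ(j)`-combination of `1, y, …, y^(n-1)`

Exact skeleton statement `span_of_ANData` (helper6088's `Skeleton.lean`), proved from
`Span5369.span_core` (`SpanCore.lean`, which only imports `Defs.lean`).
-/

set_option autoImplicit false

noncomputable section

namespace Fermat.Agent.S28

open ModularCurve Polynomial

/-- **Part IIa** (char 0): every element of `F` is a `ℚ(j)`-combination of `1, y, …, y^(n-1)`. -/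
theorem span_of_ANData (N : ℕ) [NeZero N] (D : ANData N) (x : LaurentSeries ℚ)
    (hx : x ∈ modularFunctionFieldFull N) :
    ∃ (b : ℚ[X]) (a : Fin (Fintype.card D.ι) → ℚ[X]), b ≠ 0 ∧
      x * Polynomial.aeval jq b =
        ∑ i, Polynomial.aeval jq (a i) * (yUnit ℚ N : LaurentSeries ℚ) ^ (i : ℕ) :=
  Span5369.span_core N D.R D.u₀ D.Y D.J D.base_Y (fun d _ hd => D.base_J d hd) D.charpoly_Y
    D.charpoly_Yinv D.lagrange (fun u hu => (D.order_Y u hu).1) x hx

end Fermat.Agent.S28
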