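import Fermat.Agent.S28.Defs

/-!
# S28: the interface structure `ANData` delivered by the analytic part (Part I)

Verbatim copy of the structure in helper6088's `Skeleton.lean`, isolated in its own file so that the
files proving `exists_ANData` can import it without importing the skeleton.
-/

set_option autoImplicit false

noncomputable section

namespace Fermat.Agent.S28

open ModularCurve Polynomial

/-- The data delivered by the analytic part (Part I): the `t = q^(1/N)`-expansions `(Y u, J u d)` of the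
translates of `(y, j(d·))` under `Γ₀(N) \ SL₂(ℤ)`, over a subring `R ⊆ ℂ` (`= ℤ[ζ_N, 1/N]`). -/
structure ANData (N : ℕ) [NeZero N] where
  /-- coefficient ring, `ℤ[ζ_N, 1/N]` -/
  R : Subring ℂ
  /-- index set: `Γ₀(N) \ SL₂(ℤ)` -/
  ι : Type
  [fintype : Fintype ι]
  [decEq : DecidableEq ι]
  /-- the trivial coset -/
  u₀ : ι
  /-- expansion of `y ∘ γ_u` -/
  Y : ι → (LaurentSeries R)ˣ
  /-- expansion of `j(d · γ_u τ)` -/
  J : ι → ℕ → LaurentSeries R
  /-- `R` is integral over `ℤ_(ℓ)` for every prime `ℓ ∤ N` -/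
  integral : ∀ ℓ : ℕ, ℓ.Prime → ¬ ℓ ∣ N → ∀ r : R, IsIntegral (Zl ℓ) (r : ℂ)
  base_Y : (Y u₀ : LaurentSeries R) = qExpand R N (yUnit R N)
  base_J : ∀ (d : ℕ) [NeZero d], d ∣ N → J u₀ d = qExpand R N (qExpand R d (jqModC R))
  /-- `∏_u (X - Y_u) ∈ R[j][X]` -/
  charpoly_Y : ∏ u : ι, (X - C (Y u : LaurentSeries R)) ∈
    Polynomial.lifts ((Polynomial.aeval (R := R) (jt R N)).toRingHom)
  /-- `∏_u (X - Y_u⁻¹) ∈ R[j][X]` -/
  charpoly_Yinv : ∏ u : ι, (X - C (((Y u)⁻¹ : (LaurentSeries R)ˣ) : LaurentSeries R)) ∈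
    Polynomial.lifts ((Polynomial.aeval (R := R) (jt R N)).toRingHom)
  /-- Lagrange sums `Σ_u J_{d,u} ∏_{u' ≠ u} (X - Y_u') ∈ R[j][X]` -/
  lagrange : ∀ (d : ℕ), d ∣ N →
    ∑ u : ι, C (J u d) * ∏ u' ∈ Finset.univ.erase u, (X - C (Y u' : LaurentSeries R)) ∈
      Polynomial.lifts ((Polynomial.aeval (R := R) (jt R N)).toRingHom)
  /-- every translate except the trivial one has `t`-order exactly `-N φ(N)` and unit leading coeff -/
  order_Y : ∀ u, u ≠ u₀ → (Y u : LaurentSeries R).order = -((N : ℤ) * (N.totient : ℤ)) ∧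
    IsUnit (Y u : LaurentSeries R).leadingCoeff

attribute [instance] ANData.fintype ANData.decEq

end Fermat.Agent.S28
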