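import Fermat.Agent.S28.Defs

/-!
# S28, Part IV: `A/ℓA ↪ 𝔽_ℓ((q))` implies `A ⊗_{ℤ_(ℓ)} K` is a domain
-/

set_option autoImplicit false

noncomputable section

namespace Fermat.Agent.S28

open ModularCurve
open scoped TensorProduct

/-- Two ring homomorphisms out of `ℤ_(ℓ)` agree. -/
theorem Zl_ringHom_ext (ℓ : ℕ) {S : Type*} [Ring S] (f g : Zl ℓ →+* S) : f = g := by
  ext x
  obtain ⟨q, hq⟩ := x
  have hq' : q.den.Coprime ℓ := hq
  have hdinv : ((q.den : ℚ)⁻¹) ∈ GaloisRep.ratLocalizedAt ℓ := by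
    show ((q.den : ℚ)⁻¹).den.Coprime ℓ
    rw [Rat.inv_natCast_den_of_pos q.den_pos]
    exact hq'
  set dinv : Zl ℓ := ⟨(q.den : ℚ)⁻¹, hdinv⟩ with hdinv_def
  have h1 : (q.den : Zl ℓ) * dinv = 1 := by
    apply Subtype.ext
    simp [hdinv_def]
  have h2 : (⟨q, hq⟩ : Zl ℓ) = (q.num : Zl ℓ) * dinv := by
    apply Subtype.ext
    simp only [hdinv_def, Subring.coe_mul, Subring.coe_intCast]
    rw [← div_eq_mul_inv, Rat.num_div_den]
  have hf : (q.den : S) * f dinv = 1 := by rw [← map_natCast f, ← map_mul, h1, map_one]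
  have hg : (q.den : S) * g dinv = 1 := by rw [← map_natCast g, ← map_mul, h1, map_one]
  have hf' : f dinv * (q.den : S) = 1 := by
    rw [← map_natCast f, ← map_mul, mul_comm, h1, map_one]
  have hfg : f dinv = g dinv := by
    calc f dinv = f dinv * ((q.den : S) * g dinv) := by rw [hg, mul_one]
      _ = (f dinv * (q.den : S)) * g dinv := by rw [mul_assoc]
      _ = g dinv := by rw [hf', one_mul]
  rw [h2, map_mul, map_mul, map_intCast, map_intCast, hfg]

section Tensor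

variable (ℓ : ℕ) [Fact ℓ.Prime] (A : Type) [CommRing A] [Algebra (Zl ℓ) A]
  (K : Type) [Field K] [CharP K ℓ] [Algebra (Zl ℓ) K]

/-- coefficientwise `𝔽_ℓ((q)) → K((q))` -/
def coeffK : LaurentSeries (ZMod ℓ) →+* LaurentSeries K :=
  coeffMap (ZMod.castHom (dvd_refl ℓ) K)

/-- the comparison map `A ⊗ K → K((q))` attached to `ρ : A → 𝔽_ℓ((q))` -/
def tensorToLaurent (ρ : A →+* LaurentSeries (ZMod ℓ)) : A ⊗[Zl ℓ] K →+* LaurentSeries K :=
  letI _alg : Algebra (Zl ℓ) (LaurentSeries K) :=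
    ((HahnSeries.C : K →+* LaurentSeries K).comp (algebraMap (Zl ℓ) K)).toAlgebra
  (Algebra.TensorProduct.productMap
    ({ toRingHom := (coeffK ℓ K).comp ρ
       commutes' := fun r => RingHom.congr_fun (Zl_ringHom_ext ℓ
        (((coeffK ℓ K).comp ρ).comp (algebraMap (Zl ℓ) A))
        (algebraMap (Zl ℓ) (LaurentSeries K))) r } : A →ₐ[Zl ℓ] LaurentSeries K)
    ({ toRingHom := HahnSeries.C
       commutes' := fun _ => rfl } : K →ₐ[Zl ℓ] LaurentSeries K)).toRingHom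

theorem tensorToLaurent_tmul (ρ : A →+* LaurentSeries (ZMod ℓ)) (a : A) (c : K) :
    tensorToLaurent ℓ A K ρ (a ⊗ₜ c) = coeffK ℓ K (ρ a) * HahnSeries.C c := by
  simp [tensorToLaurent]

omit [Fact ℓ.Prime] in
theorem natCast_smul_eq_zero_K (c : K) : ((ℓ : Zl ℓ) • c) = 0 := by
  rw [Algebra.smul_def, map_natCast, CharP.cast_eq_zero K ℓ, zero_mul]

theorem tmul_eq_zero_of_mem_span (a : A) (ha : a ∈ Ideal.span {(ℓ : A)}) (c : K) :
    (a ⊗ₜ[Zl ℓ] c) = 0 := by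
  obtain ⟨a', rfl⟩ := Ideal.mem_span_singleton'.mp ha
  have : a' * (ℓ : A) = (ℓ : Zl ℓ) • a' := by
    rw [Algebra.smul_def, map_natCast, mul_comm]
  rw [this, TensorProduct.smul_tmul, natCast_smul_eq_zero_K, TensorProduct.tmul_zero]

section Basis

variable [Algebra (ZMod ℓ) K]

theorem zmod_smul_eq (c : K) (x : ZMod ℓ) : x • c = ((x.val : ℕ) : Zl ℓ) • c := by
  rw [Algebra.smul_def, Algebra.smul_def, map_natCast]
  conv_lhs => rw [← ZMod.natCast_zmod_val x, map_natCast]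

theorem zmod_smul_eq' (c : K) (x : ZMod ℓ) : x • c = ZMod.castHom (dvd_refl ℓ) K x * c := by
  rw [Algebra.smul_def, RingHom.ext_zmod (algebraMap (ZMod ℓ) K) (ZMod.castHom (dvd_refl ℓ) K)]

theorem exists_finsupp_repr {ι : Type*} (b : Module.Basis ι (ZMod ℓ) K) (z : A ⊗[Zl ℓ] K) :
    ∃ f : ι →₀ A, z = f.sum (fun j a => a ⊗ₜ[Zl ℓ] b j) := by
  induction z using TensorProduct.induction_on with
  | zero => exact ⟨0, by simp⟩
  | tmul a c =>
    refine ⟨(b.repr c).mapRange (fun x => ((x.val : ℕ) : Zl ℓ) • a) (by simp), ?_⟩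
    rw [Finsupp.sum_mapRange_index (by intro j; simp)]
    have key : ∀ j (x : ZMod ℓ),
        (((x.val : ℕ) : Zl ℓ) • a) ⊗ₜ[Zl ℓ] b j = a ⊗ₜ[Zl ℓ] (x • b j) := by
      intro j x
      rw [TensorProduct.smul_tmul, zmod_smul_eq]
    simp only [key]
    conv_lhs => rw [← b.linearCombination_repr c, Finsupp.linearCombination_apply]
    rw [Finsupp.sum, Finsupp.sum, TensorProduct.tmul_sum]
  | add z₁ z₂ h₁ h₂ =>
    obtain ⟨f₁, rfl⟩ := h₁
    obtain ⟨f₂, rfl⟩ := h₂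
    refine ⟨f₁ + f₂, ?_⟩
    rw [Finsupp.sum_add_index' (by intro j; simp)
      (by intro j a₁ a₂; simp [TensorProduct.add_tmul])]

theorem rho_eq_zero_of_sum {ι : Type*} (b : Module.Basis ι (ZMod ℓ) K)
    (ρ : A →+* LaurentSeries (ZMod ℓ)) (f : ι →₀ A)
    (h : tensorToLaurent ℓ A K ρ (f.sum (fun j a => a ⊗ₜ[Zl ℓ] b j)) = 0) (j : ι) :
    ρ (f j) = 0 := by
  by_cases hj : j ∈ f.support
  swap
  · rw [Finsupp.notMem_support_iff.mp hj, map_zero]
  ext n
  have hn := congrArg (fun s : LaurentSeries K => s.coeff n) h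
  simp only [Finsupp.sum, map_sum, tensorToLaurent_tmul, HahnSeries.coeff_sum,
    HahnSeries.coeff_zero] at hn
  have hterm : ∀ i, (coeffK ℓ K (ρ (f i)) * HahnSeries.C (b i)).coeff n
      = ((ρ (f i)).coeff n) • b i := by
    intro i
    rw [zmod_smul_eq', mul_comm, HahnSeries.C_mul_eq_smul, HahnSeries.coeff_smul, coeffK,
      coeffMap_coeff, smul_eq_mul, mul_comm]
  simp only [hterm] at hn
  exact linearIndependent_iff'.mp b.linearIndependent f.support
    (fun i => (ρ (f i)).coeff n) hn j hj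

theorem tensorToLaurent_injective {ι : Type*} (b : Module.Basis ι (ZMod ℓ) K)
    (ρ : A →+* LaurentSeries (ZMod ℓ))
    (hρ : RingHom.ker ρ = Ideal.span {(ℓ : A)}) :
    Function.Injective (tensorToLaurent ℓ A K ρ) := by
  rw [injective_iff_map_eq_zero]
  intro z hz
  obtain ⟨f, rfl⟩ := exists_finsupp_repr ℓ A K b z
  have h0 := rho_eq_zero_of_sum ℓ A K b ρ f hz
  rw [Finsupp.sum]
  refine Finset.sum_eq_zero fun j _ => ?_
  exact tmul_eq_zero_of_mem_span ℓ A K (f j) (hρ ▸ (RingHom.mem_ker.mpr (h0 j))) (b j)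

end Basis

/-- **Part IV**: `A/ℓA ↪ 𝔽_ℓ((q))` implies `A ⊗ K` is a domain. -/
theorem isDomain_tensor_of_rho (ρ : A →+* LaurentSeries (ZMod ℓ))
    (hρ : RingHom.ker ρ = Ideal.span {(ℓ : A)}) : IsDomain (A ⊗[Zl ℓ] K) := by
  letI := ZMod.algebra K ℓ
  exact Function.Injective.isDomain (tensorToLaurent ℓ A K ρ)
    (tensorToLaurent_injective ℓ A K (Module.Basis.ofVectorSpace (ZMod ℓ) K) ρ hρ)

/-- **Part IV'**: a ring hom `A → 𝔽_ℓ((q))` implies `A ⊗ K ≠ 0`. -/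
theorem nontrivial_tensor_of_rho (ρ : A →+* LaurentSeries (ZMod ℓ)) :
    Nontrivial (A ⊗[Zl ℓ] K) :=
  (tensorToLaurent ℓ A K ρ).domain_nontrivial

end Tensor

end Fermat.Agent.S28
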