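import Mathlib

/-!
# S28, Part I helper: the Möbius / gcd-square identity

`∑_{d ∣ N} μ(N/d) · gcd(d,c)^2 = J₂(N)` if `N ∣ c` and `0` otherwise.
This computes the `t`-order of the translates `y ∘ γ` of the eta-quotient unit.
Mathlib-only file.
-/

set_option autoImplicit false

namespace Fermat.Agent.S28

open ArithmeticFunction Finset

/-- The Jordan totient `J₂`, defined as the Möbius transform of the squares. -/
def jordan2 (n : ℕ) : ℤ :=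
  ∑ x ∈ n.divisorsAntidiagonal, (ArithmeticFunction.moebius x.fst : ℤ) * (x.snd : ℤ) ^ 2

theorem sum_divisors_jordan2 (n : ℕ) (hn : 0 < n) :
    ∑ i ∈ n.divisors, jordan2 i = (n : ℤ) ^ 2 :=
  (sum_eq_iff_sum_mul_moebius_eq (f := jordan2) (g := fun n : ℕ => (n : ℤ) ^ 2)).mpr
    (fun _ _ => rfl) n hn

theorem filter_dvd_divisors_eq (n c : ℕ) (hn : 0 < n) :
    n.divisors.filter (· ∣ c) = (Nat.gcd n c).divisors := by
  ext i
  simp only [mem_filter, Nat.mem_divisors, Nat.dvd_gcd_iff]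
  constructor
  · rintro ⟨⟨h1, _⟩, h2⟩
    exact ⟨⟨h1, h2⟩, Nat.gcd_ne_zero_left hn.ne'⟩
  · rintro ⟨⟨h1, h2⟩, _⟩
    exact ⟨⟨h1, hn.ne'⟩, h2⟩

/-- `∑_{xy = n} μ(x) gcd(y,c)^2 = J₂(n) [n ∣ c]`. -/
theorem sum_moebius_mul_gcd_sq_antidiagonal (c n : ℕ) (hn : 0 < n) :
    ∑ x ∈ n.divisorsAntidiagonal,
        (ArithmeticFunction.moebius x.fst : ℤ) * ((Nat.gcd x.snd c : ℕ) : ℤ) ^ 2 =
      if n ∣ c then jordan2 n else 0 := by
  refine (sum_eq_iff_sum_mul_moebius_eq (f := fun i : ℕ => if i ∣ c then jordan2 i else 0)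
    (g := fun n : ℕ => ((Nat.gcd n c : ℕ) : ℤ) ^ 2)).mp ?_ n hn
  intro m hm
  rw [← sum_filter, filter_dvd_divisors_eq m c hm]
  exact sum_divisors_jordan2 _ (Nat.gcd_pos_of_pos_left _ hm)

/-- `∑_{d ∣ N} μ(N/d) gcd(d,c)^2 = J₂(N) [N ∣ c]`. -/
theorem sum_moebius_mul_gcd_sq (c N : ℕ) (hN : 0 < N) :
    ∑ d ∈ N.divisors, (ArithmeticFunction.moebius (N / d) : ℤ) * ((Nat.gcd d c : ℕ) : ℤ) ^ 2 =
      if N ∣ c then jordan2 N else 0 := by
  rw [← sum_moebius_mul_gcd_sq_antidiagonal c N hN]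
  exact (Nat.sum_divisorsAntidiagonal'
    (f := fun x y : ℕ => (ArithmeticFunction.moebius x : ℤ) * ((Nat.gcd y c : ℕ) : ℤ) ^ 2)).symm

/-- the case used for the translates: if `N ∤ c` the sum vanishes. -/
theorem sum_moebius_mul_gcd_sq_of_not_dvd (c N : ℕ) (hN : 0 < N) (h : ¬ N ∣ c) :
    ∑ d ∈ N.divisors, (ArithmeticFunction.moebius (N / d) : ℤ) * ((Nat.gcd d c : ℕ) : ℤ) ^ 2 = 0 := by
  rw [sum_moebius_mul_gcd_sq c N hN, if_neg h]

/-- `∑_{d ∣ N} d μ(N/d) = φ(N)`. -/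
theorem sum_mul_moebius_eq_totient (N : ℕ) (hN : 0 < N) :
    ∑ d ∈ N.divisors, (d : ℤ) * (ArithmeticFunction.moebius (N / d) : ℤ) = (N.totient : ℤ) := by
  have h := (sum_eq_iff_sum_mul_moebius_eq (f := fun i : ℕ => (i.totient : ℤ))
    (g := fun n : ℕ => (n : ℤ))).mp (fun n _ => by
      rw [← Nat.cast_sum, Nat.sum_totient]) N hN
  rw [← h]
  simp only [Int.cast_id]
  rw [Nat.sum_divisorsAntidiagonal' (f := fun x y : ℕ => (ArithmeticFunction.moebius x : ℤ) * (y : ℤ))]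
  exact sum_congr rfl fun d _ => mul_comm _ _

/-- `∑_{d ∣ N} d² μ(N/d) = J₂(N)`. -/
theorem sum_sq_mul_moebius_eq_jordan2 (N : ℕ) :
    ∑ d ∈ N.divisors, (d : ℤ) ^ 2 * (ArithmeticFunction.moebius (N / d) : ℤ) = jordan2 N := by
  rw [jordan2,
    Nat.sum_divisorsAntidiagonal' (f := fun x y : ℕ => (ArithmeticFunction.moebius x : ℤ) * (y : ℤ) ^ 2)]
  exact sum_congr rfl fun d _ => mul_comm _ _

end Fermat.Agent.S28
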