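import Mathlib
import Fermat.Prelude.Def_ModularCurve_IgusaScheme

set_option autoImplicit false
open AlgebraicGeometry CategoryTheory CategoryTheory.Limits ModularCurve ModularCurve.IgusaScheme
open scoped TensorProduct

noncomputable section

namespace Fermat.Agent.S28

/-- A space covered by two irreducible open subsets with nonempty intersection is irreducible. -/
theorem irreducibleSpace_of_two_opens {X : Type*} [TopologicalSpace X] (U V : Set X)
    (hU : IsIrreducible U) (hV : IsIrreducible V) (hUo : IsOpen U) (hVo : IsOpen V)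
    (hcov : ∀ x, x ∈ U ∨ x ∈ V) (hne : (U ∩ V).Nonempty) : IrreducibleSpace X := by
  have key : ∀ u : Set X, IsOpen u → u.Nonempty → (U ∩ (u ∩ V)).Nonempty := by
    intro u hu ⟨x, hx⟩
    rcases hcov x with h | h
    · exact hU.2 u V hu hVo ⟨x, h, hx⟩ hne
    · have := hV.2 u U hu hUo ⟨x, h, hx⟩ (by rwa [Set.inter_comm])
      obtain ⟨y, hyV, hyu, hyU⟩ := this
      exact ⟨y, hyU, hyu, hyV⟩
  have : Nonempty X := ⟨hne.some⟩
  refine @IrreducibleSpace.mk X _ ⟨?_⟩ inferInstance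
  intro u v hu hv ⟨x, _, hx⟩ ⟨y, _, hy⟩
  obtain ⟨z, hzU, ⟨hzu, -⟩, ⟨hzv, -⟩⟩ := hU.2 (u ∩ V) (v ∩ V) (hu.inter hVo) (hv.inter hVo)
    (key u hu ⟨x, hx⟩) (key v hv ⟨y, hy⟩)
  exact ⟨z, trivial, hzu, hzv⟩

/-- A scheme covered by two integral open subschemes with a common point is integral. -/
theorem isIntegral_of_two_charts {Y U V : Scheme.{0}} (u : U ⟶ Y) (v : V ⟶ Y)
    [IsOpenImmersion u] [IsOpenImmersion v] [IsIntegral U] [IsIntegral V]
    (hcov : ∀ y : Y, y ∈ Set.range u ∨ y ∈ Set.range v)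
    (hne : ∃ y : Y, y ∈ Set.range u ∧ y ∈ Set.range v) : IsIntegral Y := by
  have hred : IsReduced Y := by
    have : ∀ y : Y, _root_.IsReduced (Y.presheaf.stalk y) := by
      intro y
      rcases hcov y with ⟨x, rfl⟩ | ⟨x, rfl⟩
      · exact isReduced_of_injective (u.stalkMap x).hom
          ((ConcreteCategory.bijective_of_isIso (u.stalkMap x)).injective)
      · exact isReduced_of_injective (v.stalkMap x).hom
          ((ConcreteCategory.bijective_of_isIso (v.stalkMap x)).injective)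
    exact isReduced_of_isReduced_stalk Y
  have hirr : IrreducibleSpace Y := by
    refine irreducibleSpace_of_two_opens (Set.range u) (Set.range v) ?_ ?_
      u.isOpenEmbedding.isOpen_range v.isOpenEmbedding.isOpen_range hcov ?_
    · rw [← Set.image_univ]
      exact (IrreducibleSpace.isIrreducible_univ U).image _ u.continuous.continuousOn
    · rw [← Set.image_univ]
      exact (IrreducibleSpace.isIrreducible_univ V).image _ v.continuous.continuousOn
    · obtain ⟨y, h1, h2⟩ := hne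
      exact ⟨y, h1, h2⟩
  exact isIntegral_of_irreducibleSpace_of_isReduced Y


variable (N : ℕ) [NeZero N] (ℓ : ℕ) [Fact ℓ.Prime]

variable (K : Type) [CommRing K] [Algebra ↥(GaloisRep.ratLocalizedAt ℓ) K]

omit [Fact ℓ.Prime] in
/-- integrality of the fibre product of two affine schemes whose tensor product is a domain -/
theorem isIntegral_pullback_Spec (A : Type) [CommRing A] [Algebra ↥(GaloisRep.ratLocalizedAt ℓ) A]
    (h : IsDomain (A ⊗[↥(GaloisRep.ratLocalizedAt ℓ)] K)) :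
    IsIntegral (pullback (Spec.map (CommRingCat.ofHom (algebraMap ↥(GaloisRep.ratLocalizedAt ℓ) A)))
      (Spec.map (CommRingCat.ofHom (algebraMap ↥(GaloisRep.ratLocalizedAt ℓ) K)))) := by
  have : IsDomain (CommRingCat.of (A ⊗[↥(GaloisRep.ratLocalizedAt ℓ)] K)) := h
  exact IsIntegral.of_isIso (pullbackSpecIso ↥(GaloisRep.ratLocalizedAt ℓ) A K).inv

omit [Fact ℓ.Prime] in
theorem nonempty_pullback_Spec (A : Type) [CommRing A] [Algebra ↥(GaloisRep.ratLocalizedAt ℓ) A]
    (h : Nontrivial (A ⊗[↥(GaloisRep.ratLocalizedAt ℓ)] K)) :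
    Nonempty ↥(pullback (Spec.map (CommRingCat.ofHom (algebraMap ↥(GaloisRep.ratLocalizedAt ℓ) A)))
      (Spec.map (CommRingCat.ofHom (algebraMap ↥(GaloisRep.ratLocalizedAt ℓ) K)))) := by
  have : Nontrivial (CommRingCat.of (A ⊗[↥(GaloisRep.ratLocalizedAt ℓ)] K)) := h
  have : Nonempty ↥(Spec (CommRingCat.of (A ⊗[↥(GaloisRep.ratLocalizedAt ℓ)] K))) :=
    inferInstanceAs (Nonempty (PrimeSpectrum (A ⊗[↥(GaloisRep.ratLocalizedAt ℓ)] K)))
  exact Nonempty.map (pullbackSpecIso ↥(GaloisRep.ratLocalizedAt ℓ) A K).inv this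

/-- Reduction of S28 to three commutative-algebra statements about the chart algebras. -/
theorem isIntegral_pullback_igusaTo_of_charts
    (hFin : IsDomain (chartAlgFin N ℓ ⊗[↥(GaloisRep.ratLocalizedAt ℓ)] K))
    (hInf : IsDomain (chartAlgInf N ℓ ⊗[↥(GaloisRep.ratLocalizedAt ℓ)] K))
    (hMid : Nontrivial (chartAlgMid N ℓ ⊗[↥(GaloisRep.ratLocalizedAt ℓ)] K)) :
    IsIntegral (pullback (igusaTo N ℓ)
      (Spec.map (CommRingCat.ofHom (algebraMap ↥(GaloisRep.ratLocalizedAt ℓ) K)))) := by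
  set g := Spec.map (CommRingCat.ofHom (algebraMap ↥(GaloisRep.ratLocalizedAt ℓ) K)) with hg
  let uFin : pullback (ιFin N ℓ ≫ igusaTo N ℓ) g ⟶ pullback (igusaTo N ℓ) g :=
    pullback.map _ _ _ _ (ιFin N ℓ) (𝟙 _) (𝟙 _) (by simp) (by simp)
  let uInf : pullback (ιInf N ℓ ≫ igusaTo N ℓ) g ⟶ pullback (igusaTo N ℓ) g :=
    pullback.map _ _ _ _ (ιInf N ℓ) (𝟙 _) (𝟙 _) (by simp) (by simp)
  have oFin : IsOpenImmersion uFin := inferInstance
  have oInf : IsOpenImmersion uInf := inferInstance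
  have iFin : IsIntegral (pullback (ιFin N ℓ ≫ igusaTo N ℓ) g) := by
    rw [ιFin_igusaTo]; exact isIntegral_pullback_Spec ℓ K _ hFin
  have iInf : IsIntegral (pullback (ιInf N ℓ ≫ igusaTo N ℓ) g) := by
    rw [ιInf_igusaTo]; exact isIntegral_pullback_Spec ℓ K _ hInf
  have rFin : Set.range uFin = pullback.fst (igusaTo N ℓ) g ⁻¹' Set.range (ιFin N ℓ) := by
    rw [Scheme.Pullback.range_map]; simp
  have rInf : Set.range uInf = pullback.fst (igusaTo N ℓ) g ⁻¹' Set.range (ιInf N ℓ) := by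
    rw [Scheme.Pullback.range_map]; simp
  refine isIntegral_of_two_charts uFin uInf ?_ ?_
  · intro y
    rw [rFin, rInf]
    exact mem_range_ιFin_or_mem_range_ιInf N ℓ _
  · -- a common point coming from the middle chart
    have hmidEq : fFin N ℓ ≫ ιFin N ℓ ≫ igusaTo N ℓ =
        Spec.map (CommRingCat.ofHom (algebraMap ↥(GaloisRep.ratLocalizedAt ℓ) (chartAlgMid N ℓ))) := by
      rw [ιFin_igusaTo, ← Spec.map_comp, ← CommRingCat.ofHom_comp]
      congr 2
    have hne : Nonempty ↥(pullback (fFin N ℓ ≫ ιFin N ℓ ≫ igusaTo N ℓ) g) := by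
      rw [hmidEq]; exact nonempty_pullback_Spec ℓ K _ hMid
    obtain ⟨z⟩ := hne
    let uMid : pullback (fFin N ℓ ≫ ιFin N ℓ ≫ igusaTo N ℓ) g ⟶ pullback (igusaTo N ℓ) g :=
      pullback.map _ _ _ _ (fFin N ℓ ≫ ιFin N ℓ) (𝟙 _) (𝟙 _) (by simp) (by simp)
    have hcomp : uMid ≫ pullback.fst (igusaTo N ℓ) g =
        pullback.fst (fFin N ℓ ≫ ιFin N ℓ ≫ igusaTo N ℓ) g ≫ (fFin N ℓ ≫ ιFin N ℓ) :=
      pullback.lift_fst _ _ _
    have hfst : pullback.fst (igusaTo N ℓ) g (uMid z) =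
        (fFin N ℓ ≫ ιFin N ℓ) (pullback.fst (fFin N ℓ ≫ ιFin N ℓ ≫ igusaTo N ℓ) g z) := by
      rw [← Scheme.Hom.comp_apply, ← Scheme.Hom.comp_apply, hcomp]
    refine ⟨uMid z, ?_, ?_⟩
    · rw [rFin, Set.mem_preimage, hfst]
      exact ⟨fFin N ℓ (pullback.fst _ g z), by simp⟩
    · rw [rInf, Set.mem_preimage, hfst, glue_condition]
      exact ⟨fInf N ℓ (pullback.fst _ g z), by simp⟩

end Fermat.Agent.S28
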