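import Mathlib
import Fermat.Prelude.Def_ModularCurve_IgusaScheme
import Fermat.Prelude.Def_ModularCurve_X0ModL

set_option autoImplicit false

noncomputable section

namespace Fermat.Agent.S28

open ModularCurve

/-- `ℤ_(ℓ)` as in the statement. -/
abbrev Zl (ℓ : ℕ) : Type := ↥(GaloisRep.ratLocalizedAt ℓ)

section Formal

variable (R : Type*) [CommRing R]

/-- formal `Δ(q) = q * ∏ (1 - q^n)^24` as a unit of `R((q))`. -/
def deltaUnit : (LaurentSeries R)ˣ where
  val := HahnSeries.single (1 : ℤ) (1 : R) *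
    HahnSeries.ofPowerSeries ℤ R (dedekindEtaUnit.map (Int.castRingHom R))
  inv := HahnSeries.single (-1 : ℤ) (1 : R) *
    HahnSeries.ofPowerSeries ℤ R (dedekindEtaUnitInv.map (Int.castRingHom R))
  val_inv := by
    rw [mul_mul_mul_comm, HahnSeries.single_mul_single, ← map_mul, ← map_mul,
      dedekindEtaUnit_mul_inv]
    simp
  inv_val := by
    rw [mul_mul_mul_comm, HahnSeries.single_mul_single, ← map_mul, ← map_mul,
      mul_comm dedekindEtaUnitInv, dedekindEtaUnit_mul_inv]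
    simp

/-- formal `Δ(q^d)`. -/
def deltaUnitAt (d : ℕ) [NeZero d] : (LaurentSeries R)ˣ :=
  Units.map (qExpand R d : LaurentSeries R →* LaurentSeries R) (deltaUnit R)

open Classical in
/-- formal `Δ(q^d)`, junk (`1`) for `d = 0`. -/
def deltaUnitAt' (d : ℕ) : (LaurentSeries R)ˣ :=
  if h : d = 0 then 1 else haveI : NeZero d := ⟨h⟩; deltaUnitAt R d

/-- The modular unit `y = ∏_{d ∣ N} Δ(q^d)^(d μ(N/d)) / Δ(q)^φ(N)`. -/
def yUnit (N : ℕ) : (LaurentSeries R)ˣ :=
  (∏ d ∈ N.divisors, deltaUnitAt' R d ^ ((d : ℤ) * ArithmeticFunction.moebius (N / d))) *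
    deltaUnit R ^ (-(N.totient : ℤ))

/-- `j(t^N)` over `R`. -/
def jt (N : ℕ) [NeZero N] : LaurentSeries R := qExpand R N (jqModC R)

end Formal

end Fermat.Agent.S28
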